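import Fermat.Agent.RED.ES.H95_HeckeNorm
import Fermat.Agent.RED.H10_Kronecker

/-!
# G-RED, package ES-2 (helper95): final statements

`ℓ` prime, `ℓ ∤ N`, `α, β : F_N → F_{Nℓ}` the degeneracy maps of the prelude
(`heckeAlphaBar`, `heckeBetaBar` over `Q̄`), norms taken for the algebra structure
`algebraAlong β`.

* `finrankAlong_beta` : `[F_{Nℓ} : β F_N] = ℓ + 1`.
* `norm_alpha_qExpand` : `(N_β (α g)) (q ^ ℓ) = g (q ^ (ℓ²)) * ∏_{b < ℓ} g (ζ ^ b q)`.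
* `norm_sub_alpha_qExpand` : the same for `c - α f`, `c ∈ Q̄`, in the exact shape of the
  hypothesis of `Fermat.Agent.RED.H10.kronecker_norm`.
-/

set_option autoImplicit false

noncomputable section

namespace Fermat.Agent.RED.H95

open Fermat.Agent.S24 ModularCurve Matrix ModularGroup CongruenceSubgroup UpperHalfPlane
open scoped MatrixGroups

variable {N : ℕ} [NeZero N] {ℓ : ℕ} [NeZero ℓ]

attribute [local instance] algBeta algPhiAlpha

omit [NeZero N] [NeZero ℓ] in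
theorem exists_bezout (hℓ : ℓ.Prime) (hN : ¬ ℓ ∣ N) : ∃ u v : ℤ, u * ℓ + v * N = 1 := by
  have hco : Nat.Coprime ℓ N := (Nat.Prime.coprime_iff_not_dvd hℓ).mpr hN
  have := Nat.isCoprime_iff_coprime.mpr hco
  obtain ⟨u, v, huv⟩ := this
  exact ⟨u, v, huv⟩

/-- `[F_{Nℓ} : β F_N] = ℓ + 1`. -/
theorem finrank_beta (hℓ : ℓ.Prime) (hN : ¬ ℓ ∣ N) :
    Module.finrank (FN N) (FN (N * ℓ)) = ℓ + 1 := by
  obtain ⟨u, v, h⟩ := exists_bezout hℓ hN
  have := isSeparable_beta (N := N) hℓ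
  rw [finrank_eq_card_of_cover (rhoK hℓ) (sigmaK u v h) (sigmaK_cover hℓ u v h)
    (sigmaK_injective hℓ u v h), Fintype.card_option, Fintype.card_fin]

/-- `[F_{Nℓ} : β F_N] = ℓ + 1`, in the vocabulary of the prelude. -/
theorem finrankAlong_beta (hℓ : ℓ.Prime) (hN : ¬ ℓ ∣ N) :
    AlgebraicCurve.finrankAlong Kbar (heckeBetaBar Kbar N ℓ) = ℓ + 1 :=
  finrank_beta hℓ hN

/-- `β` is finite. -/
theorem finiteAlong_beta (hℓ : ℓ.Prime) :
    AlgebraicCurve.FiniteAlong Kbar (heckeBetaBar Kbar N ℓ) :=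
  finiteDimensional_beta (N := N) hℓ

/-- The norm of `y ∈ F_{Nℓ}` along `β`, expanded in `u = q ^ (1 / (N ℓ))`. -/
theorem qExpand_norm (hℓ : ℓ.Prime) (u v : ℤ) (h : u * ℓ + v * N = 1) (y : FN (N * ℓ)) :
    qExpand Kbar (N * ℓ) ((Algebra.norm (FN N) y : FN N) : LaurentSeries Kbar)
      = ∏ c, UL (N * ℓ) (sigmaK u v h c (rhoK hℓ y)) := by
  have := isSeparable_beta (N := N) hℓ
  have hnorm := norm_eq_prod_of_cover (rhoK hℓ) (sigmaK u v h) (sigmaK_cover hℓ u v h)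
    (sigmaK_injective hℓ u v h) y
  have h2 := congrArg (UL (N * ℓ)) hnorm
  rw [map_prod, algebraMap_phiAlpha, phiAlpha_apply, UL_phi, qN_apply, coe_heckeAlphaBar] at h2
  exact h2

/-- The primitive `ℓ`-th root of unity `ζ_{Nℓ}^{-N}`. -/
def zetaL (N ℓ : ℕ) [NeZero N] [NeZero ℓ] : Kbar := (zetaK (N * ℓ))⁻¹ ^ N

theorem isPrimitiveRoot_zetaL : IsPrimitiveRoot (zetaL N ℓ) ℓ :=
  IsPrimitiveRoot.pow (NeZero.pos (N * ℓ)) (isPrimitiveRoot_zetaK (N * ℓ)).inv rfl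

/-- **ES-2**, first form. -/
theorem norm_alpha_qExpand_zetaL (hℓ : ℓ.Prime) (hN : ¬ ℓ ∣ N) (g : FN N) :
    qExpand Kbar ℓ ((Algebra.norm (FN N) (heckeAlphaBar Kbar N ℓ g) : FN N) : LaurentSeries Kbar)
      = qExpand Kbar ℓ (qExpand Kbar ℓ (g : LaurentSeries Kbar))
        * ∏ b : Fin ℓ, twist (zetaL N ℓ ^ (b : ℕ)) (g : LaurentSeries Kbar) := by
  obtain ⟨u, v, h⟩ := exists_bezout hℓ hN
  apply qExpand_injective (R := Kbar) N
  rw [qExpand_qExpand, qExpand_norm hℓ u v h, Fintype.prod_option, map_mul, map_prod]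
  congr 1
  · -- the extra coset
    show UL (N * ℓ) (piK (N * ℓ) (deltaInf N ℓ u v h) (rho N hℓ (heckeAlphaBar Kbar N ℓ g))) = _
    have e2 := congrArg (fun f : FN N →ₐ[Kbar] LN (N * ℓ) => f g)
      (piK_deltaInf_rho_alpha hℓ u v h)
    simp only [AlgHom.comp_apply] at e2
    rw [e2, UL_phi, qN_apply, coe_heckeBetaBar, qExpand_qExpand, qExpand_qExpand, qExpand_qExpand]
  · refine Finset.prod_congr rfl fun b _ => ?_
    show UL (N * ℓ) (piN (N * ℓ) (T ^ (b : ℕ)) (rho N hℓ (heckeAlphaBar Kbar N ℓ g))) = _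
    rw [UL_piN_T_pow, UL_rho, coe_heckeAlphaBar, ← qExpand_twist, zetaL, ← pow_mul, ← pow_mul,
      Nat.mul_comm (b : ℕ) N]

omit [NeZero ℓ] in
/-- The product over the `ℓ`-th roots of unity does not depend on the primitive root. -/
theorem prod_twist_eq {ζ ζ' : Kbar} (hζ : IsPrimitiveRoot ζ ℓ) (hζ' : IsPrimitiveRoot ζ' ℓ)
    (F : Kbar → LaurentSeries Kbar) :
    ∏ b ∈ Finset.range ℓ, F (ζ ^ b) = ∏ b ∈ Finset.range ℓ, F (ζ' ^ b) := by
  have h1 := hζ.nthRoots_eq (α := 1) (a := 1) (one_pow ℓ)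
  have h2 := hζ'.nthRoots_eq (α := 1) (a := 1) (one_pow ℓ)
  have e : ∀ z : Kbar, ∏ b ∈ Finset.range ℓ, F (z ^ b)
      = (((Multiset.range ℓ).map (z ^ · * 1)).map F).prod := by
    intro z
    rw [Multiset.map_map]
    show _ = ((Finset.range ℓ).val.map _).prod
    rw [← Finset.prod_eq_multiset_prod]
    refine Finset.prod_congr rfl fun b _ => ?_
    simp
  rw [e ζ, e ζ', ← h1, ← h2]

theorem rot_eq_twist (z : Kbarˣ) (x : LaurentSeries Kbar) :
    H10.rot z x = twist (z : Kbar) x := by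
  ext n
  rw [H10.rot_coeff, twist_coeff, Units.val_zpow_eq_zpow_val]

/-- **ES-2.** `(N_β (α g)) (q ^ ℓ) = g (q ^ (ℓ²)) * ∏_{b < ℓ} g (ζ ^ b q)` for every primitive
`ℓ`-th root of unity `ζ`. -/
theorem norm_alpha_qExpand (hℓ : ℓ.Prime) (hN : ¬ ℓ ∣ N) (ζ : Kbarˣ) (hζ : IsPrimitiveRoot ζ ℓ)
    (g : FN N) :
    qExpand Kbar ℓ ((Algebra.norm (FN N) (heckeAlphaBar Kbar N ℓ g) : FN N) : LaurentSeries Kbar)
      = qExpand Kbar ℓ (qExpand Kbar ℓ (g : LaurentSeries Kbar))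
        * ∏ b ∈ Finset.range ℓ, H10.rot (ζ ^ b) (g : LaurentSeries Kbar) := by
  rw [norm_alpha_qExpand_zetaL hℓ hN g]
  congr 1
  have hζ' : IsPrimitiveRoot (ζ : Kbar) ℓ := IsPrimitiveRoot.coe_units_iff.mpr hζ
  rw [Fin.prod_univ_eq_prod_range (fun b => twist (zetaL N ℓ ^ b) (g : LaurentSeries Kbar)) ℓ,
    prod_twist_eq isPrimitiveRoot_zetaL hζ' (fun z => twist z (g : LaurentSeries Kbar))]
  refine Finset.prod_congr rfl fun b _ => ?_
  rw [rot_eq_twist, Units.val_pow_eq_pow_val]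

theorem coe_algebraMap_FN (M : ℕ) (c : Kbar) :
    ((algebraMap Kbar (FN M) c : FN M) : LaurentSeries Kbar) = HahnSeries.C c := by
  show algebraMap Kbar (LaurentSeries Kbar) c = HahnSeries.C c
  rw [algebraMap_laurentSeries_eq_single]
  rfl

/-- **ES-2**, in the shape of the hypothesis of `H10.kronecker_norm`:
`(N_β (c - α f)) (q ^ ℓ) = (c - f (q ^ (ℓ²))) * ∏_{b < ℓ} (c - f (ζ ^ b q))`. -/
theorem norm_sub_alpha_qExpand (hℓ : ℓ.Prime) (hN : ¬ ℓ ∣ N) (ζ : Kbarˣ)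
    (hζ : IsPrimitiveRoot ζ ℓ) (f : FN N) (c : Kbar) :
    qExpand Kbar ℓ ((Algebra.norm (FN N)
        (algebraMap Kbar (FN (N * ℓ)) c - heckeAlphaBar Kbar N ℓ f) : FN N) : LaurentSeries Kbar)
      = (HahnSeries.C c - qExpand Kbar ℓ (qExpand Kbar ℓ (f : LaurentSeries Kbar)))
        * ∏ b ∈ Finset.range ℓ, (HahnSeries.C c - H10.rot (ζ ^ b) (f : LaurentSeries Kbar)) := by
  have e : algebraMap Kbar (FN (N * ℓ)) c - heckeAlphaBar Kbar N ℓ f
      = heckeAlphaBar Kbar N ℓ (algebraMap Kbar (FN N) c - f) := by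
    rw [map_sub, AlgHom.commutes]
  have hcoe : ((algebraMap Kbar (FN N) c - f : FN N) : LaurentSeries Kbar)
      = HahnSeries.C c - (f : LaurentSeries Kbar) := by
    rw [← coe_algebraMap_FN N c]
    rfl
  rw [e, norm_alpha_qExpand hℓ hN ζ hζ, hcoe, map_sub, map_sub, qExpand_C, qExpand_C]
  congr 1
  refine Finset.prod_congr rfl fun b _ => ?_
  rw [map_sub, H10.rot_C]

end Fermat.Agent.RED.H95

namespace Fermat.Agent.RED.H95

open Fermat.Agent.S24 ModularCurve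

/-- **ES-2**, stated without local instances: the algebra structure is `algebraAlong β`. -/
theorem stmt_ES2 (N ℓ : ℕ) [NeZero N] [NeZero ℓ] (hℓ : ℓ.Prime) (hN : ¬ ℓ ∣ N) (ζ : Kbarˣ)
    (hζ : IsPrimitiveRoot ζ ℓ) (f : FN N) (c : Kbar) :
    letI := AlgebraicCurve.algebraAlong (heckeBetaBar Kbar N ℓ)
    qExpand Kbar ℓ ((Algebra.norm (FN N)
        (algebraMap Kbar (FN (N * ℓ)) c - heckeAlphaBar Kbar N ℓ f) : FN N) : LaurentSeries Kbar)
      = (HahnSeries.C c - qExpand Kbar ℓ (qExpand Kbar ℓ (f : LaurentSeries Kbar)))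
        * ∏ b ∈ Finset.range ℓ, (HahnSeries.C c - H10.rot (ζ ^ b) (f : LaurentSeries Kbar)) :=
  norm_sub_alpha_qExpand hℓ hN ζ hζ f c

end Fermat.Agent.RED.H95
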