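import Fermat.Agent.RED.ES.H95_ES2

/-!
# G-RED / G-TOR (helper95): the norm along `α`

`ℓ` prime, `ℓ ∤ N`, `α, β : F_N → F_{Nℓ}` the degeneracy maps of the prelude
(`heckeAlphaBar`, `heckeBetaBar` over `Q̄`).  `H95_ES2` computes the norm of `α g` for the algebra
structure `algebraAlong β`; here the norm of `β g` for the algebra structure `algebraAlong α`:

* `finrankAlong_alpha` : `[F_{Nℓ} : α F_N] = ℓ + 1`;
* `norm_alpha_beta_eq` : `N_α (β g) = N_β (α g)` in `F_N` (the Hecke correspondence is symmetric);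
* `norm_beta_qExpand` : `(N_α (β g)) (q ^ ℓ) = g (q ^ (ℓ²)) * ∏_{b < ℓ} g (ζ ^ b q)`,
  i.e. `N_α (β g) (q) = g (q ^ ℓ) * ∏_{b < ℓ} g (ζ ^ b q ^ (1 / ℓ))`.

Method: `ρ' = π (δ∞⁻¹) ∘ φ : F_{Nℓ} → L = LN (N ℓ)` satisfies `ρ' ∘ α = φ ∘ α = ρ ∘ β` and
`ρ' ∘ β = ρ ∘ α`, so that `ρ'` is an `F_N`-embedding for the structure `α` on `F_{Nℓ}` and
`φ ∘ α` on `L`, with the same image as `ρ`; the `ℓ + 1` automorphisms `sigmaK c` of `H95_HeckeNorm`
cover the embeddings over `α` as well.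
-/

set_option autoImplicit false

noncomputable section

namespace Fermat.Agent.RED.H95

open Fermat.Agent.S24 ModularCurve Matrix ModularGroup CongruenceSubgroup UpperHalfPlane
open scoped MatrixGroups

variable {N : ℕ} [NeZero N] {ℓ : ℕ} [NeZero ℓ]

/-- Two homomorphisms on `F_{Nℓ}` which agree on `α F_N` and on `β F_N` are equal. -/
theorem algHom_ext_alpha_beta (hℓ : ℓ.Prime) {B : Type*} [Field B] [Algebra Kbar B]
    (f g : FN (N * ℓ) →ₐ[Kbar] B)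
    (hα : ∀ x : FN N, f (heckeAlphaBar Kbar N ℓ x) = g (heckeAlphaBar Kbar N ℓ x))
    (hβ : ∀ x : FN N, f (heckeBetaBar Kbar N ℓ x) = g (heckeBetaBar Kbar N ℓ x)) : f = g := by
  apply algHom_eq_of_adjoin_eq_top _ _ _ (adjoin_jdF (N * ℓ))
  rintro _ ⟨d', hd0, hd', rfl⟩
  rcases dvd_mul_prime_cases hℓ hd' with hdN | ⟨d, hdN, rfl⟩
  · have e := alpha_jdF N (ℓ := ℓ) d' hdN
    rw [← e]
    exact hα _
  · have : NeZero d := ⟨fun h0 => NeZero.ne (ℓ * d) (by rw [h0, mul_zero])⟩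
    have e := beta_jdF N (ℓ := ℓ) d hdN
    rw [← e]
    exact hβ _

theorem piK_one (M : ℕ) [NeZero M] (y : LN M) : piK M 1 y = y := by
  rw [piK_apply, map_one]
  rfl

theorem piK_inv_piK (M : ℕ) [NeZero M] (γ : SL(2, ℤ)) (y : LN M) :
    piK M γ⁻¹ (piK M γ y) = y := by
  rw [← piK_mul, inv_mul_cancel, piK_one]

theorem piK_piK_inv (M : ℕ) [NeZero M] (γ : SL(2, ℤ)) (y : LN M) :
    piK M γ (piK M γ⁻¹ y) = y := by
  rw [← piK_mul, mul_inv_cancel, piK_one]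

/-- `ρ' = π (δ∞⁻¹) ∘ φ : F_{Nℓ} → L` (morally `ρ ∘ w_ℓ`). -/
def rhoW (u v : ℤ) (h : u * ℓ + v * N = 1) : FN (N * ℓ) →ₐ[Kbar] LN (N * ℓ) :=
  (piK (N * ℓ) (deltaInf N ℓ u v h)⁻¹).comp (phi (N * ℓ))

theorem rhoW_apply (u v : ℤ) (h : u * ℓ + v * N = 1) (x : FN (N * ℓ)) :
    rhoW u v h x = piK (N * ℓ) (deltaInf N ℓ u v h)⁻¹ (phi (N * ℓ) x) := rfl

theorem piK_deltaInf_rhoW (u v : ℤ) (h : u * ℓ + v * N = 1) (x : FN (N * ℓ)) :
    piK (N * ℓ) (deltaInf N ℓ u v h) (rhoW u v h x) = phi (N * ℓ) x := by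
  rw [rhoW_apply, piK_piK_inv]

theorem rhoW_alpha (u v : ℤ) (h : u * ℓ + v * N = 1) (g : FN N) :
    rhoW u v h (heckeAlphaBar Kbar N ℓ g) = phi (N * ℓ) (heckeAlphaBar Kbar N ℓ g) := by
  have := piK_phiAlpha_of_mem_Gamma0 N (ℓ := ℓ) _ (inv_mem (deltaInf_mem_Gamma0 N ℓ u v h))
  exact congrArg (fun f : FN N →ₐ[Kbar] LN (N * ℓ) => f g) this

theorem rhoW_beta (hℓ : ℓ.Prime) (u v : ℤ) (h : u * ℓ + v * N = 1) (g : FN N) :
    rhoW u v h (heckeBetaBar Kbar N ℓ g) = rho N hℓ (heckeAlphaBar Kbar N ℓ g) := by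
  have e2 := congrArg (fun f : FN N →ₐ[Kbar] LN (N * ℓ) => f g)
    (piK_deltaInf_rho_alpha hℓ u v h)
  simp only [AlgHom.comp_apply] at e2
  rw [rhoW_apply, ← e2, piK_inv_piK]

/-- An element of `Γ₀(N) ∩ Γ⁰(ℓ)` fixes `ρ' (F_{Nℓ})`. -/
theorem piK_rhoW_of_fix (hℓ : ℓ.Prime) (u v : ℤ) (h : u * ℓ + v * N = 1) (η : SL(2, ℤ))
    (hb : (ℓ : ℤ) ∣ (η⁻¹ : SL(2, ℤ)).1 0 1) (hc : (N : ℤ) ∣ (η⁻¹ : SL(2, ℤ)).1 1 0) :
    (piK (N * ℓ) η).comp (rhoW u v h) = rhoW u v h := by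
  have hfix : ∀ x, piK (N * ℓ) η (rho N hℓ x) = rho N hℓ x := fun x =>
    congrArg (fun f : FN (N * ℓ) →ₐ[Kbar] LN (N * ℓ) => f x) (piK_rho_of_fix hℓ η hb hc)
  apply algHom_ext_alpha_beta hℓ
  · intro g
    rw [AlgHom.comp_apply, rhoW_alpha, ← rho_beta N hℓ, hfix]
  · intro g
    rw [AlgHom.comp_apply, rhoW_beta hℓ, hfix]

variable (N) in
/-- `F_{Nℓ}` as an algebra over `F_N` through `α`. -/
@[reducible] def algAlpha : Algebra (FN N) (FN (N * ℓ)) :=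
  AlgebraicCurve.algebraAlong (heckeAlphaBar Kbar N ℓ)

section Alpha

attribute [local instance] algAlpha algPhiAlpha

theorem algebraMap_alpha (g : FN N) :
    algebraMap (FN N) (FN (N * ℓ)) g = heckeAlphaBar Kbar N ℓ g := rfl

/-- `ρ'` as a homomorphism of `F_N`-algebras (structure `α` on `F_{Nℓ}`). -/
def rhoWK (u v : ℤ) (h : u * ℓ + v * N = 1) : FN (N * ℓ) →ₐ[FN N] LN (N * ℓ) :=
  { (rhoW u v h).toRingHom with
    commutes' := fun g => rhoW_alpha u v h g }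

theorem rhoWK_apply (u v : ℤ) (h : u * ℓ + v * N = 1) (x : FN (N * ℓ)) :
    rhoWK u v h x = rhoW u v h x := rfl

theorem finiteDimensional_alpha (hℓ : ℓ.Prime) (hN : ¬ ℓ ∣ N) :
    FiniteDimensional (FN N) (FN (N * ℓ)) := by
  obtain ⟨u, v, h⟩ := exists_bezout hℓ hN
  exact finiteDimensional_of_algHom (rhoWK u v h)

theorem isSeparable_alpha (hℓ : ℓ.Prime) (hN : ¬ ℓ ∣ N) :
    Algebra.IsSeparable (FN N) (FN (N * ℓ)) := by
  have := finiteDimensional_alpha (N := N) hℓ hN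
  infer_instance

/-- Every `F_N`-endomorphism of `LN (N ℓ)` agrees on `ρ' (F_{Nℓ})` with some `sigmaK c`. -/
theorem sigmaK_cover_alpha (hℓ : ℓ.Prime) (u v : ℤ) (h : u * ℓ + v * N = 1)
    (τ : LN (N * ℓ) →ₐ[FN N] LN (N * ℓ)) :
    ∃ c, τ.comp (rhoWK u v h) = (sigmaK u v h c).comp (rhoWK u v h) := by
  let τE : LN (N * ℓ) →ₐ[EN] LN (N * ℓ) := τ.restrictScalars EN
  let τ' : LN (N * ℓ) ≃ₐ[EN] LN (N * ℓ) := AlgEquiv.ofBijective τE (AlgHom.bijective τE)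
  obtain ⟨γ, hγ⟩ := piN_surjective (N * ℓ) τ'
  have hτ : ∀ y, piN (N * ℓ) γ y = τ y := fun y => by rw [hγ]; rfl
  have hγ0 : γ ∈ Gamma0 N := by
    apply mem_Gamma0_of_piK_phiAlpha N (ℓ := ℓ) γ
    rw [piK_apply, hτ]
    exact τ.commutes (jdF N N dvd_rfl)
  obtain ⟨c, η, hγη, hb, hc⟩ := exists_cosetRep N ℓ hℓ u v h γ hγ0
  refine ⟨c, ?_⟩
  ext x
  rw [AlgHom.comp_apply, AlgHom.comp_apply, ← hτ, hγη, sigmaK_apply, rhoWK_apply, map_mul]
  show piN (N * ℓ) (cosetRep N ℓ u v h c) (piK (N * ℓ) η (rhoW u v h x)) = _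
  have := piK_rhoW_of_fix hℓ u v h η hb hc
  rw [← AlgHom.comp_apply, this]

end Alpha

/-- Distinctness of the `sigmaK c` on the single element `ρ (j)`. -/
theorem sigmaK_rho_jdF_injective (hℓ : ℓ.Prime) (u v : ℤ) (h : u * ℓ + v * N = 1)
    (c c' : Option (Fin ℓ))
    (hv0 : piK (N * ℓ) (cosetRep N ℓ u v h c) (rho N hℓ (jdF (N * ℓ) 1 (one_dvd _)))
      = piK (N * ℓ) (cosetRep N ℓ u v h c') (rho N hℓ (jdF (N * ℓ) 1 (one_dvd _)))) :
    c = c' := by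
  have hv : (UL (N * ℓ) (sigmaK u v h c (rhoK hℓ (jdF (N * ℓ) 1 (one_dvd _))))).coeff (-(N : ℤ))
        = (UL (N * ℓ) (sigmaK u v h c' (rhoK hℓ (jdF (N * ℓ) 1 (one_dvd _))))).coeff
          (-(N : ℤ)) := by
    show (UL (N * ℓ) (piK (N * ℓ) (cosetRep N ℓ u v h c)
      (rho N hℓ (jdF (N * ℓ) 1 (one_dvd _))))).coeff (-(N : ℤ)) = (UL (N * ℓ) (piK (N * ℓ)
      (cosetRep N ℓ u v h c') (rho N hℓ (jdF (N * ℓ) 1 (one_dvd _))))).coeff (-(N : ℤ))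
    rw [hv0]
  rw [coeff_sigmaK_rho_jF, coeff_sigmaK_rho_jF] at hv
  have hz : zetaK (N * ℓ) ≠ 0 := zetaK_ne_zero (N * ℓ)
  have hne : ∀ b : ℕ, ((zetaK (N * ℓ))⁻¹ ^ b) ^ (-(N : ℤ)) ≠ 0 :=
    fun b => zpow_ne_zero _ (pow_ne_zero _ (inv_ne_zero hz))
  have hform : ∀ b : ℕ, ((zetaK (N * ℓ))⁻¹ ^ b) ^ (-(N : ℤ)) = zetaK (N * ℓ) ^ ((b : ℤ) * N) := by
    intro b
    rw [← zpow_natCast, ← _root_.zpow_mul, _root_.inv_zpow']
    congr 1
    ring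
  cases c with
  | none =>
    cases c' with
    | none => rfl
    | some b' => exact absurd hv.symm (hne _)
  | some b =>
    cases c' with
    | none => exact absurd hv (hne _)
    | some b' =>
      simp only at hv
      rw [hform, hform] at hv
      have h1 : zetaK (N * ℓ) ^ (((b : ℕ) : ℤ) * N - ((b' : ℕ) : ℤ) * N) = 1 := by
        rw [zpow_sub₀ hz, hv, div_self (zpow_ne_zero _ hz)]
      rw [zetaK_zpow_eq_one_iff] at h1
      obtain ⟨k, hk⟩ := h1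
      have hN : (0 : ℤ) < N := by exact_mod_cast NeZero.pos N
      push_cast at hk
      have hk' : (N : ℤ) * (((b : ℕ) : ℤ) - ((b' : ℕ) : ℤ) - ℓ * k) = 0 := by
        linear_combination hk
      have hk2 : ((b : ℕ) : ℤ) - ((b' : ℕ) : ℤ) = ℓ * k := by
        rcases mul_eq_zero.mp hk' with h0 | h0
        · omega
        · linarith
      have hb := b.2
      have hb' := b'.2
      have hk0 : k = 0 := by
        by_contra hk0
        have hℓpos : (0 : ℤ) < ℓ := by exact_mod_cast hℓ.pos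
        rcases lt_or_gt_of_ne hk0 with hneg | hpos
        · have : (ℓ : ℤ) * k ≤ -ℓ := by nlinarith
          omega
        · have : (ℓ : ℤ) ≤ ℓ * k := by nlinarith
          omega
      rw [hk0, mul_zero] at hk2
      congr 1
      apply Fin.ext
      omega

section Alpha2

attribute [local instance] algAlpha algPhiAlpha

theorem sigmaK_injective_alpha (hℓ : ℓ.Prime) (u v : ℤ) (h : u * ℓ + v * N = 1) :
    Function.Injective fun c => (sigmaK u v h c).comp (rhoWK u v h) := by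
  intro c c' hcc
  apply sigmaK_rho_jdF_injective hℓ u v h
  have e := congrArg (fun f : FN (N * ℓ) →ₐ[FN N] LN (N * ℓ) =>
    f (heckeBetaBar Kbar N ℓ (jdF N 1 (one_dvd _)))) hcc
  simp only [AlgHom.comp_apply, rhoWK_apply, rhoW_beta hℓ, alpha_jdF] at e
  exact e

/-- `[F_{Nℓ} : α F_N] = ℓ + 1`. -/
theorem finrank_alpha (hℓ : ℓ.Prime) (hN : ¬ ℓ ∣ N) :
    Module.finrank (FN N) (FN (N * ℓ)) = ℓ + 1 := by
  obtain ⟨u, v, h⟩ := exists_bezout hℓ hN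
  have := isSeparable_alpha (N := N) hℓ hN
  rw [finrank_eq_card_of_cover (rhoWK u v h) (sigmaK u v h) (sigmaK_cover_alpha hℓ u v h)
    (sigmaK_injective_alpha hℓ u v h), Fintype.card_option, Fintype.card_fin]

/-- `[F_{Nℓ} : α F_N] = ℓ + 1`, in the vocabulary of the prelude. -/
theorem finrankAlong_alpha (hℓ : ℓ.Prime) (hN : ¬ ℓ ∣ N) :
    AlgebraicCurve.finrankAlong Kbar (heckeAlphaBar Kbar N ℓ) = ℓ + 1 :=
  finrank_alpha hℓ hN

/-- `α` is finite. -/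
theorem finiteAlong_alpha (hℓ : ℓ.Prime) (hN : ¬ ℓ ∣ N) :
    AlgebraicCurve.FiniteAlong Kbar (heckeAlphaBar Kbar N ℓ) :=
  finiteDimensional_alpha (N := N) hℓ hN

/-- The norm of `y ∈ F_{Nℓ}` along `α`, expanded in `u = q ^ (1 / (N ℓ))`. -/
theorem qExpand_norm_along_alpha (hℓ : ℓ.Prime) (hN : ¬ ℓ ∣ N) (u v : ℤ)
    (h : u * ℓ + v * N = 1) (y : FN (N * ℓ)) :
    qExpand Kbar (N * ℓ) ((Algebra.norm (FN N) y : FN N) : LaurentSeries Kbar)
      = ∏ c, UL (N * ℓ) (piK (N * ℓ) (cosetRep N ℓ u v h c) (rhoW u v h y)) := by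
  have := isSeparable_alpha (N := N) hℓ hN
  have hnorm := norm_eq_prod_of_cover (rhoWK u v h) (sigmaK u v h) (sigmaK_cover_alpha hℓ u v h)
    (sigmaK_injective_alpha hℓ u v h) y
  have h2 := congrArg (UL (N * ℓ)) hnorm
  rw [map_prod, algebraMap_phiAlpha, phiAlpha_apply, UL_phi, qN_apply, coe_heckeAlphaBar] at h2
  exact h2

end Alpha2

/-- **Symmetry of the Hecke correspondence**: `N_α (β g) = N_β (α g)` in `F_N`. -/
theorem norm_alpha_beta_eq (hℓ : ℓ.Prime) (hN : ¬ ℓ ∣ N) (g : FN N) :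
    @Algebra.norm (FN N) (FN (N * ℓ)) _ _ (AlgebraicCurve.algebraAlong (heckeAlphaBar Kbar N ℓ))
        (heckeBetaBar Kbar N ℓ g)
      = @Algebra.norm (FN N) (FN (N * ℓ)) _ _
          (AlgebraicCurve.algebraAlong (heckeBetaBar Kbar N ℓ)) (heckeAlphaBar Kbar N ℓ g) := by
  obtain ⟨u, v, h⟩ := exists_bezout hℓ hN
  apply Subtype.ext
  apply qExpand_injective (R := Kbar) (N * ℓ)
  have h1 := qExpand_norm_along_alpha hℓ hN u v h (heckeBetaBar Kbar N ℓ g)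
  have h2 := qExpand_norm hℓ u v h (heckeAlphaBar Kbar N ℓ g)
  refine h1.trans (Eq.trans ?_ h2.symm)
  refine Finset.prod_congr rfl fun c _ => ?_
  rw [rhoW_beta hℓ]
  rfl

/-- **NormSeries.** `(N_α (β g)) (q ^ ℓ) = g (q ^ (ℓ²)) * ∏_{b < ℓ} g (ζ ^ b q)` for every
primitive `ℓ`-th root of unity `ζ`, i.e. `N_α (β g) (q) = g (q ^ ℓ) ∏_b g (ζ ^ b q ^ (1 / ℓ))`. -/
theorem norm_beta_qExpand (hℓ : ℓ.Prime) (hN : ¬ ℓ ∣ N) (ζ : Kbarˣ) (hζ : IsPrimitiveRoot ζ ℓ)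
    (g : FN N) :
    qExpand Kbar ℓ ((@Algebra.norm (FN N) (FN (N * ℓ)) _ _
        (AlgebraicCurve.algebraAlong (heckeAlphaBar Kbar N ℓ))
        (heckeBetaBar Kbar N ℓ g) : FN N) : LaurentSeries Kbar)
      = qExpand Kbar ℓ (qExpand Kbar ℓ (g : LaurentSeries Kbar))
        * ∏ b ∈ Finset.range ℓ, H10.rot (ζ ^ b) (g : LaurentSeries Kbar) := by
  rw [norm_alpha_beta_eq hℓ hN]
  exact norm_alpha_qExpand hℓ hN ζ hζ g

/-- The same with `twist` (`twist z x = x (z q)`) and the root of unity `zetaL`. -/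
theorem norm_beta_qExpand_zetaL (hℓ : ℓ.Prime) (hN : ¬ ℓ ∣ N) (g : FN N) :
    qExpand Kbar ℓ ((@Algebra.norm (FN N) (FN (N * ℓ)) _ _
        (AlgebraicCurve.algebraAlong (heckeAlphaBar Kbar N ℓ))
        (heckeBetaBar Kbar N ℓ g) : FN N) : LaurentSeries Kbar)
      = qExpand Kbar ℓ (qExpand Kbar ℓ (g : LaurentSeries Kbar))
        * ∏ b : Fin ℓ, twist (zetaL N ℓ ^ (b : ℕ)) (g : LaurentSeries Kbar) := by
  rw [norm_alpha_beta_eq hℓ hN]
  exact norm_alpha_qExpand_zetaL hℓ hN g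

end Fermat.Agent.RED.H95

namespace Fermat.Agent.RED.H95

open Fermat.Agent.S24 ModularCurve

/-- **NormSeries**, stated without local instances: the algebra structure is `algebraAlong α`. -/
theorem stmt_NormSeries (N ℓ : ℕ) [NeZero N] [NeZero ℓ] (hℓ : ℓ.Prime) (hN : ¬ ℓ ∣ N) (ζ : Kbarˣ)
    (hζ : IsPrimitiveRoot ζ ℓ) (f : FN N) :
    letI := AlgebraicCurve.algebraAlong (heckeAlphaBar Kbar N ℓ)
    qExpand Kbar ℓ ((Algebra.norm (FN N) (heckeBetaBar Kbar N ℓ f) : FN N) : LaurentSeries Kbar)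
      = qExpand Kbar ℓ (qExpand Kbar ℓ (f : LaurentSeries Kbar))
        * ∏ b ∈ Finset.range ℓ, H10.rot (ζ ^ b) (f : LaurentSeries Kbar) :=
  norm_beta_qExpand hℓ hN ζ hζ f

end Fermat.Agent.RED.H95
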