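import Fermat.Agent.RED.H10_Kronecker
import Fermat.Agent.GTor.H44_NormSeries
import Fermat.Agent.S28.H73_GaussV

/-!
# G-RED, package ES-3 (helper95), part 1: Kronecker's congruence on the Gauss ring

`C` a field, `O` a valuation subring of `C` with residue field `k` of characteristic `ℓ`, `C`
containing a primitive `ℓ`-th root of unity.  For a series `x ∈ C((q))` in the Gauss ring of `O`
(a quotient `h / g` of series with coefficients in `O`, `g` primitive) the formal Hecke norm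
`normSeries x = x (q ^ ℓ) · ∏_{ζ ^ ℓ = 1} x (ζ q ^ (1 / ℓ))` (helper44) is again in the Gauss ring,
and it reduces to `frobNorm x~ = x~ (q ^ ℓ) · φ (x~)`, `φ` the Frobenius on the coefficients.

* `exists_normSeries_iotaV` : the integral case, from `H10.kronecker_norm`;
* `normSeries_mem_gaussRingV`, `gaussRedV_normSeries` : the general case, by multiplicativity.
-/

set_option autoImplicit false

noncomputable section

namespace Fermat.Agent.RED.H95

open ModularCurve Fermat.Agent.S28 Fermat.Agent.S28.H73 Fermat.Agent.GTor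

section KronGauss

variable {C : Type} [Field C] (O : ValuationSubring C) (ℓ : ℕ) [Fact ℓ.Prime]

/-- A root of unity lies in every valuation subring. -/
theorem mem_of_pow_eq_one' {z : C} (hz : z ^ ℓ = 1) : z ∈ O := by
  have hℓ : ℓ ≠ 0 := (Fact.out : ℓ.Prime).ne_zero
  rcases O.mem_or_inv_mem z with h | h
  · exact h
  · have hz0 : z ≠ 0 := by
      rintro rfl
      rw [zero_pow hℓ] at hz
      exact zero_ne_one hz
    have h1 : z * z ^ (ℓ - 1) = 1 := by
      rw [← pow_succ', Nat.sub_add_cancel (Nat.pos_of_ne_zero hℓ), hz]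
    have h2 : z = z⁻¹ ^ (ℓ - 1) := by
      rw [inv_pow]
      exact eq_inv_of_mul_eq_one_left h1
    rw [h2]
    exact pow_mem h _

variable [CharP (kV O) ℓ]

/-- `frobNorm s = s (q ^ ℓ) · φ (s)`, `φ` the Frobenius on the coefficients. -/
def frobNorm (s : LaurentSeries (kV O)) : LaurentSeries (kV O) :=
  qExpand (kV O) ℓ s * coeffMap (frobenius (kV O) ℓ) s

theorem frobNorm_mul (s t : LaurentSeries (kV O)) :
    frobNorm O ℓ (s * t) = frobNorm O ℓ s * frobNorm O ℓ t := by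
  unfold frobNorm
  rw [map_mul, map_mul]
  ring

theorem coeffMap_frobenius_injective :
    Function.Injective (coeffMap (frobenius (kV O) ℓ) : LaurentSeries (kV O) → _) := by
  intro s t hst
  ext n
  have := congrArg (fun x : LaurentSeries (kV O) => x.coeff n) hst
  simp only [coeffMap_coeff] at this
  exact frobenius_inj (kV O) ℓ this

theorem frobNorm_ne_zero {s : LaurentSeries (kV O)} (hs : s ≠ 0) : frobNorm O ℓ s ≠ 0 := by
  unfold frobNorm
  refine mul_ne_zero ?_ ?_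
  · intro h0
    exact hs (H44.qExpand_injective (ℓ := ℓ) (by rw [h0, map_zero]))
  · intro h0
    exact hs (coeffMap_frobenius_injective O ℓ (by rw [h0, map_zero]))

theorem rot_eq_twistBy {K : Type*} [Field K] (u : Kˣ) (s : LaurentSeries K) :
    H10.rot u s = H44.twistBy u s := by
  ext n
  rw [H10.rot_coeff, H44.twistBy_coeff]

/-- **Kronecker's congruence** for the formal Hecke norm of an integral series. -/
theorem exists_normSeries_iotaV {ζ₀ : Cˣ} (hζ : IsPrimitiveRoot ζ₀ ℓ) (y : LaurentSeries ↥O) :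
    ∃ z : LaurentSeries ↥O, iotaV O z = H44.normSeries C ℓ (iotaV O y) ∧
      redV O z = frobNorm O ℓ (redV O y) := by
  have h1 : (ζ₀ : C) ^ ℓ = 1 := by
    rw [← Units.val_pow_eq_pow_val, hζ.pow_eq_one, Units.val_one]
  have h1' : ((ζ₀⁻¹ : Cˣ) : C) ^ ℓ = 1 := by
    rw [← Units.val_pow_eq_pow_val, inv_pow, hζ.pow_eq_one, inv_one, Units.val_one]
  have hmem : (ζ₀ : C) ∈ O := mem_of_pow_eq_one' O ℓ h1
  have hmem' : ((ζ₀⁻¹ : Cˣ) : C) ∈ O := mem_of_pow_eq_one' O ℓ h1'
  let ζ : (↥O)ˣ := ⟨⟨ζ₀, hmem⟩, ⟨(ζ₀⁻¹ : Cˣ), hmem'⟩,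
    Subtype.ext (by show (ζ₀ : C) * ((ζ₀⁻¹ : Cˣ) : C) = 1; rw [← Units.val_mul, mul_inv_cancel,
      Units.val_one]),
    Subtype.ext (by show ((ζ₀⁻¹ : Cˣ) : C) * (ζ₀ : C) = 1; rw [← Units.val_mul, inv_mul_cancel,
      Units.val_one])⟩
  have hζ' : ζ ^ ℓ = 1 := by
    apply Units.ext
    apply Subtype.ext
    show ((((ζ ^ ℓ : (↥O)ˣ) : ↥O) : C)) = 1
    rw [Units.val_pow_eq_pow_val]
    exact h1
  have hmap : Units.map ((O.subtype : ↥O →+* C) : ↥O →* C) ζ = ζ₀ := Units.ext rfl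
  obtain ⟨z, hz1, hz2⟩ := H10.kronecker_norm ℓ (O.subtype : ↥O →+* C) Subtype.val_injective
    (resV O) ζ hζ' (-y) 0 (H44.normSeries C ℓ (iotaV O y)) (by
      rw [H44.qExpand_normSeries hζ, H44.twistProd_eq_prod_range hζ, map_zero, map_zero,
        zero_sub, map_neg, map_neg, map_neg, neg_neg]
      congr 1
      refine Finset.prod_congr rfl fun b _ => ?_
      rw [zero_sub, map_neg, neg_neg, hmap, rot_eq_twistBy]
      rfl)
  refine ⟨z, hz1, ?_⟩
  show coeffMap (resV O) z = _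
  rw [hz2, map_zero, map_zero, zero_pow (Fact.out : ℓ.Prime).ne_zero, map_zero, zero_sub,
    zero_sub, map_neg, map_neg, map_neg, neg_neg, neg_neg]
  rfl

/-- The formal Hecke norm preserves the Gauss ring. -/
theorem normSeries_mem_gaussRingV {ζ₀ : Cˣ} (hζ : IsPrimitiveRoot ζ₀ ℓ) {x : LaurentSeries C}
    (hx : x ∈ gaussRingV O) : H44.normSeries C ℓ x ∈ gaussRingV O := by
  obtain ⟨g, h, hg, hgx⟩ := hx
  obtain ⟨zg, hzg1, hzg2⟩ := exists_normSeries_iotaV O ℓ hζ g
  obtain ⟨zh, hzh1, hzh2⟩ := exists_normSeries_iotaV O ℓ hζ h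
  refine ⟨zg, zh, ?_, ?_⟩
  · rw [hzg2]
    exact frobNorm_ne_zero O ℓ hg
  · rw [hzg1, hzh1, ← H44.normSeries_mul hζ, hgx]

/-- **Kronecker's congruence on the Gauss ring**: the reduction of the formal Hecke norm. -/
theorem gaussRedV_normSeries {ζ₀ : Cˣ} (hζ : IsPrimitiveRoot ζ₀ ℓ) {x : LaurentSeries C}
    (hx : x ∈ gaussRingV O) (hx' : H44.normSeries C ℓ x ∈ gaussRingV O) :
    gaussRedV O ⟨H44.normSeries C ℓ x, hx'⟩ = frobNorm O ℓ (gaussRedV O ⟨x, hx⟩) := by
  have hx0 := hx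
  obtain ⟨g, h, hg, hgx⟩ := hx0
  obtain ⟨zg, hzg1, hzg2⟩ := exists_normSeries_iotaV O ℓ hζ g
  obtain ⟨zh, hzh1, hzh2⟩ := exists_normSeries_iotaV O ℓ hζ h
  have hzg0 : redV O zg ≠ 0 := by
    rw [hzg2]
    exact frobNorm_ne_zero O ℓ hg
  have e1 : iotaV O zg * H44.normSeries C ℓ x = iotaV O zh := by
    rw [hzg1, hzh1, ← H44.normSeries_mul hζ, hgx]
  have e2 := gaussRedV_eq O ⟨H44.normSeries C ℓ x, hx'⟩ hzg0 e1
  have e3 := gaussRedV_eq O ⟨x, hx⟩ hg hgx
  rw [e2, e3, hzg2, hzh2]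
  have e4 : redV O h = redV O h / redV O g * redV O g := by
    rw [div_mul_cancel₀ _ hg]
  conv_lhs => rw [e4, frobNorm_mul]
  rw [mul_div_assoc, div_self (frobNorm_ne_zero O ℓ hg), mul_one]

end KronGauss

end Fermat.Agent.RED.H95
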