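import Fermat.Agent.RED.Core2
import Fermat.Agent.RED.ES.H95_KronGauss
import Fermat.Agent.RED.ES.H95_ES2
import Fermat.Agent.GTor.H2_HKFinal
import Fermat.Agent.RED.H51_HKA
import Fermat.Agent.RED.H52_ES3bAbs
import Fermat.Agent.RED.H52_ES3Psi

/-!
# G-RED, package ES-3 (helper95), part 2: Eichler–Shimura on divisors

`K = ℚ̄`, `A` a valuation subring of `K` over `ℓ ∤ N`, `F = F_N`, `V` the Gauss valuation ring,
`res : V → F~ ⊆ k((q))`, `r` a reduction map of places with the conservation law `IsRed`.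

* `heckeNormFn_mem`, `gaussResF_heckeNormFn` : for `f ∈ V` the Kummer function
  `n_f = Norm_α (β f)` of `T_ℓ` is in `V` and `res n_f = (res f)(q ^ ℓ) · Frob (res f)`
  (NormSeries + Kronecker's congruence on the Gauss ring).
* `mapDomain_hecke_eq_of_unit` : `r_* (T_ℓ (div f)) = φ r_* (div f) + ℓ φ⁻¹ r_* (div f)` for
  Gauss units `f`.
* `stmt_ES3 : Stmt_ES3` : the same for all divisors (positivity + moving lemma,
  `H52.eq_of_pos_of_move` of helper52).
-/

set_option autoImplicit false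
set_option synthInstance.maxHeartbeats 400000
set_option maxHeartbeats 1000000

noncomputable section

open AlgebraicCurve ModularCurve Fermat.Agent.S28.H73 Fermat.Agent.RED.H73 Fermat.Agent.GTor

namespace Fermat.Agent.RED.H95

/-- The residue field of a valuation subring over `ℓ` has characteristic `ℓ`. -/
theorem charP_kV_of_liesOver {L : Type} [Field L] (A : ValuationSubring L) {ℓ : ℕ}
    (hℓ : ℓ.Prime) (hA : A.LiesOverPrime ℓ) : CharP (kV A) ℓ := by
  apply (CharP.charP_iff_prime_eq_zero hℓ).2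
  have h1 : (((ℓ : ℕ) : A) : L) ∈ A.nonunits := by
    rw [show (((ℓ : ℕ) : A) : L) = (ℓ : L) by simp]
    exact hA
  obtain ⟨ha, hmem⟩ := (A.mem_nonunits_iff_exists_mem_maximalIdeal).1 h1
  rw [← map_natCast (IsLocalRing.residue A)]
  exact (IsLocalRing.residue_eq_zero_iff _).2 hmem

section Norm

variable {N ℓ : ℕ} [NeZero N] [NeZero ℓ] (A : ValuationSubring (AlgebraicClosure ℚ))
variable [Fact ℓ.Prime] [CharP (kV A) ℓ]

/-- The Kummer function of `T_ℓ` preserves the Gauss valuation ring. -/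
theorem heckeNormFn_mem (hN : ¬ ℓ ∣ N) (f : ↥(modularFunctionFieldBar N))
    (hf : f ∈ gaussValSub A (modularFunctionFieldBar N) (hasScale_laurentBaseChange A N)) :
    H2.heckeNormFn (AlgebraicClosure ℚ) N ℓ f
      ∈ gaussValSub A (modularFunctionFieldBar N) (hasScale_laurentBaseChange A N) := by
  obtain ⟨ζ, hζ⟩ := H2.exists_primitiveRoot_Qbar ℓ
  have hns := H2.stmt_NormSeries N ℓ (Fact.out : ℓ.Prime) hN f
  rw [mem_gaussValSub_iff] at hf ⊢
  rw [hns]
  exact normSeries_mem_gaussRingV A ℓ hζ hf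

/-- **Kronecker's congruence for the Kummer function of `T_ℓ`**:
`res (Norm_α (β f)) = (res f)(q ^ ℓ) · Frob (res f)`. -/
theorem gaussResF_heckeNormFn (hN : ¬ ℓ ∣ N)
    (f : ↥(gaussValSub A (modularFunctionFieldBar N) (hasScale_laurentBaseChange A N))) :
    gaussResF A (hasScale_laurentBaseChange A N)
        ⟨H2.heckeNormFn (AlgebraicClosure ℚ) N ℓ (f : ↥(modularFunctionFieldBar N)),
          heckeNormFn_mem A hN _ f.2⟩
      = frobNorm A ℓ (gaussResF A (hasScale_laurentBaseChange A N) f) := by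
  obtain ⟨ζ, hζ⟩ := H2.exists_primitiveRoot_Qbar ℓ
  have hns := H2.stmt_NormSeries N ℓ (Fact.out : ℓ.Prime) hN (f : ↥(modularFunctionFieldBar N))
  have hf : ((f : ↥(modularFunctionFieldBar N)) : LaurentSeries (AlgebraicClosure ℚ))
      ∈ gaussRingV A := f.2
  have hmem := normSeries_mem_gaussRingV A ℓ hζ hf
  rw [gaussResF_apply, gaussResF_apply]
  have e : (⟨((⟨H2.heckeNormFn (AlgebraicClosure ℚ) N ℓ (f : ↥(modularFunctionFieldBar N)),
      heckeNormFn_mem A hN _ f.2⟩ : ↥(gaussValSub A (modularFunctionFieldBar N)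
        (hasScale_laurentBaseChange A N))) : ↥(modularFunctionFieldBar N)),
      heckeNormFn_mem A hN _ f.2⟩ : gaussRingV A)
      = ⟨H44.normSeries (AlgebraicClosure ℚ) ℓ
          ((f : ↥(modularFunctionFieldBar N)) : LaurentSeries (AlgebraicClosure ℚ)), hmem⟩ :=
    Subtype.ext hns
  rw [e]
  exact gaussRedV_normSeries A ℓ hζ hf hmem

end Norm

section Frob

/-- The reduced field `F~_N ⊆ k((q))`. -/
abbrev FtN (A : ValuationSubring (AlgebraicClosure ℚ)) (N : ℕ) :
    IntermediateField (kV A) (LaurentSeries (kV A)) :=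
  redField A (modularFunctionFieldBar N) (hasScale_laurentBaseChange A N)

variable {N : ℕ} (ℓ : ℕ) (A : ValuationSubring (AlgebraicClosure ℚ))

theorem coe_frob_smul [Fact ℓ.Prime] [CharP (kV A) ℓ] (φ : SemilinearAut (kV A) ↥(FtN A N))
    (hφ : ∀ (x : ↥(FtN A N)) (n : ℤ),
      ((φ • x : ↥(FtN A N)) : LaurentSeries (kV A)).coeff n
        = ((x : LaurentSeries (kV A)).coeff n) ^ ℓ)
    (x : ↥(FtN A N)) :
    ((φ • x : ↥(FtN A N)) : LaurentSeries (kV A))
      = coeffMap (frobenius (kV A) ℓ) (x : LaurentSeries (kV A)) := by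
  ext n
  rw [hφ, coeffMap_coeff]
  rfl

/-- `frobNorm y = (φ⁻¹ y) ^ ℓ · φ y`. -/
theorem frobNorm_coe [Fact ℓ.Prime] [CharP (kV A) ℓ] (φ : SemilinearAut (kV A) ↥(FtN A N))
    (hφ : ∀ (x : ↥(FtN A N)) (n : ℤ),
      ((φ • x : ↥(FtN A N)) : LaurentSeries (kV A)).coeff n
        = ((x : LaurentSeries (kV A)).coeff n) ^ ℓ)
    (y : ↥(FtN A N)) :
    frobNorm A ℓ (y : LaurentSeries (kV A))
      = (((φ⁻¹ • y) ^ ℓ * (φ • y) : ↥(FtN A N)) : LaurentSeries (kV A)) := by
  show qExpand (kV A) ℓ (y : LaurentSeries (kV A))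
      * coeffMap (frobenius (kV A) ℓ) (y : LaurentSeries (kV A))
    = ((φ⁻¹ • y : ↥(FtN A N)) : LaurentSeries (kV A)) ^ ℓ
      * ((φ • y : ↥(FtN A N)) : LaurentSeries (kV A))
  rw [coe_frob_smul ℓ A φ hφ y, H10.pow_char_eq ℓ, ← coe_frob_smul ℓ A φ hφ (φ⁻¹ • y),
    smul_inv_smul]

theorem ord_smul_left (φ : SemilinearAut (kV A) ↥(FtN A N)) (Q : Place (kV A) ↥(FtN A N))
    (y : ↥(FtN A N)) : Q.ord (φ • y) = (φ⁻¹ • Q).ord y := by
  have := SemilinearAut.ord_smul φ (φ⁻¹ • Q) y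
  rwa [smul_inv_smul] at this

/-- The order of `(φ⁻¹ y) ^ ℓ · φ y` at a place. -/
theorem ord_frobNorm (φ : SemilinearAut (kV A) ↥(FtN A N)) (Q : Place (kV A) ↥(FtN A N))
    (y : ↥(FtN A N)) (hy : y ≠ 0) :
    Q.ord ((φ⁻¹ • y) ^ ℓ * (φ • y)) = (ℓ : ℤ) * (φ • Q).ord y + (φ⁻¹ • Q).ord y := by
  have h1 : φ • y ≠ 0 := fun h0 => hy ((smul_eq_zero_iff_eq φ).1 h0)
  have h2 : φ⁻¹ • y ≠ 0 := fun h0 => hy ((smul_eq_zero_iff_eq φ⁻¹).1 h0)
  rw [Place.ord_mul _ (pow_ne_zero _ h2) h1, ← zpow_natCast, Place.ord_zpow, ord_smul_left,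
    ord_smul_left, inv_inv]

end Frob

section Principal

variable {N ℓ : ℕ} [NeZero N] [NeZero ℓ] (A : ValuationSubring (AlgebraicClosure ℚ))

/-- **Eichler–Shimura on the divisors of Gauss units**:
`r_* (T_ℓ (div u)) = φ (r_* div u) + ℓ φ⁻¹ (r_* div u)`. -/
theorem mapDomain_hecke_eq_of_unit (hℓ : ℓ.Prime) (hN : ¬ ℓ ∣ N) (hA : A.LiesOverPrime ℓ)
    (hα : HeckeAlphaBarIntegral (AlgebraicClosure ℚ) N ℓ)
    (hβ : HeckeBetaBarIntegral (AlgebraicClosure ℚ) N ℓ)
    [HasPrincipalDivisors (AlgebraicClosure ℚ) ↥(modularFunctionFieldBar (N * ℓ))]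
    (r : Place (AlgebraicClosure ℚ) ↥(modularFunctionFieldBar N) → Place (kV A) ↥(FtN A N))
    (hr : IsRed A (hasScale_laurentBaseChange A N) r)
    (φ : SemilinearAut (kV A) ↥(FtN A N))
    (hφ : ∀ (x : ↥(FtN A N)) (n : ℤ),
      ((φ • x : ↥(FtN A N)) : LaurentSeries (kV A)).coeff n
        = ((x : LaurentSeries (kV A)).coeff n) ^ ℓ)
    (u : ↥(gaussValSub A (modularFunctionFieldBar N) (hasScale_laurentBaseChange A N)))
    (hu : IsUnit u) (D : Divisor (AlgebraicClosure ℚ) ↥(modularFunctionFieldBar N))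
    (hD : ∀ P, D P = P.ord (u : ↥(modularFunctionFieldBar N))) :
    Finsupp.mapDomain r (heckeDivBar hα hβ D)
      = φ • Finsupp.mapDomain r D + ℓ • (φ⁻¹ • Finsupp.mapDomain r D) := by
  have : Fact ℓ.Prime := ⟨hℓ⟩
  have : CharP (kV A) ℓ := charP_kV_of_liesOver A hℓ hA
  obtain ⟨-, -, -, hfin, -, hNF⟩ := Fermat.Agent.RED.H51.stmt_HKA N ℓ
  have hu0 : (u : ↥(modularFunctionFieldBar N)) ≠ 0 := by
    intro h0
    have : u = 0 := Subtype.ext h0
    rw [this] at hu
    exact not_isUnit_zero hu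
  -- the Kummer function of `T_ℓ`
  set nu : ↥(gaussValSub A (modularFunctionFieldBar N) (hasScale_laurentBaseChange A N)) :=
    ⟨H2.heckeNormFn (AlgebraicClosure ℚ) N ℓ (u : ↥(modularFunctionFieldBar N)),
      heckeNormFn_mem A hN _ u.2⟩ with hnu
  have hres : gaussResF A (hasScale_laurentBaseChange A N) nu
      = frobNorm A ℓ (gaussResF A (hasScale_laurentBaseChange A N) u) :=
    gaussResF_heckeNormFn A hN u
  set y : ↥(FtN A N) := gaussResF' A (hasScale_laurentBaseChange A N) u with hy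
  have hy0 : y ≠ 0 := by
    intro h0
    have h1 : gaussResF A (hasScale_laurentBaseChange A N) u = 0 := congrArg Subtype.val h0
    exact ((isUnit_iff_gaussResF_ne_zero A (hasScale_laurentBaseChange A N) u).1 hu) h1
  have hres' : gaussResF' A (hasScale_laurentBaseChange A N) nu = (φ⁻¹ • y) ^ ℓ * (φ • y) := by
    apply Subtype.ext
    show gaussResF A (hasScale_laurentBaseChange A N) nu = _
    rw [hres]
    exact frobNorm_coe ℓ A φ hφ y
  have hnu0 : gaussResF A (hasScale_laurentBaseChange A N) nu ≠ 0 := by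
    rw [hres]
    exact frobNorm_ne_zero A ℓ
      ((isUnit_iff_gaussResF_ne_zero A (hasScale_laurentBaseChange A N) u).1 hu)
  have hnuU : IsUnit nu :=
    (isUnit_iff_gaussResF_ne_zero A (hasScale_laurentBaseChange A N) nu).2 hnu0
  -- the divisor of the Kummer function
  have hTD : ∀ P, heckeDivBar hα hβ D P = P.ord (nu : ↥(modularFunctionFieldBar N)) := by
    intro P
    have := H2.correspondence_ord (AlgebraicClosure ℚ) N ℓ hα hβ hfin hNF 1 D hu0
      (fun v => by rw [one_mul, hD v]) P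
    rw [one_mul] at this
    exact this
  ext Q
  rw [hr nu hnuU (heckeDivBar hα hβ D) hTD Q, hres', ord_frobNorm ℓ A φ Q y hy0,
    Finsupp.add_apply, Finsupp.smul_apply, SemilinearAut.divisor_smul_apply,
    SemilinearAut.divisor_smul_apply, inv_inv, hr u hu D hD, hr u hu D hD, nsmul_eq_mul]
  ring

end Principal

section PhiSide

variable {N ℓ : ℕ} [NeZero N] [NeZero ℓ]

/-- `T_ℓ P ≥ 0`. -/
theorem heckeDivBar_single_nonneg
    (hα : HeckeAlphaBarIntegral (AlgebraicClosure ℚ) N ℓ)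
    (hβ : HeckeBetaBarIntegral (AlgebraicClosure ℚ) N ℓ)
    [HasPrincipalDivisors (AlgebraicClosure ℚ) ↥(modularFunctionFieldBar (N * ℓ))]
    (P P' : Place (AlgebraicClosure ℚ) ↥(modularFunctionFieldBar N)) :
    0 ≤ heckeDivBar hα hβ (Finsupp.single P 1) P' := by
  classical
  have hα' : (heckeAlphaBar (AlgebraicClosure ℚ) N ℓ).toRingHom.IsIntegral := hα
  have hβ' : (heckeBetaBar (AlgebraicClosure ℚ) N ℓ).toRingHom.IsIntegral := hβ
  show 0 ≤ Divisor.pushforwardAlong (heckeAlphaBar (AlgebraicClosure ℚ) N ℓ) hα'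
    (Divisor.pullbackAlong (heckeBetaBar (AlgebraicClosure ℚ) N ℓ) hβ' (Finsupp.single P 1)) P'
  rw [Divisor.pullbackAlong_single, map_sum, Finsupp.finsetSum_apply]
  refine Finset.sum_nonneg fun W _ => ?_
  rw [Divisor.pushforwardAlong_single, Finsupp.single_apply]
  split_ifs
  · positivity
  · exact le_rfl

/-- If all places have degree one, the degree is the sum of the coefficients. -/
theorem degree_eq_massHom {K F : Type*} [Field K] [Field F] [Algebra K F]
    (hdeg : ∀ v : Place K F, v.deg = 1) (D : Divisor K F) :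
    Divisor.degree D = H52.massHom D := by
  induction D using Finsupp.induction_linear with
  | zero => simp
  | add f g hf hg => rw [map_add, map_add, hf, hg]
  | single v n => rw [Divisor.degree_single, hdeg, H52.massHom_single]; simp

/-- `deg (T_ℓ P) = ℓ + 1`. -/
theorem massHom_heckeDivBar_single (hℓ : ℓ.Prime) (hN : ¬ ℓ ∣ N)
    (hα : HeckeAlphaBarIntegral (AlgebraicClosure ℚ) N ℓ)
    (hβ : HeckeBetaBarIntegral (AlgebraicClosure ℚ) N ℓ)
    [HasPrincipalDivisors (AlgebraicClosure ℚ) ↥(modularFunctionFieldBar (N * ℓ))]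
    (P : Place (AlgebraicClosure ℚ) ↥(modularFunctionFieldBar N)) :
    H52.massHom (heckeDivBar hα hβ (Finsupp.single P 1)) = (ℓ : ℤ) + 1 := by
  have hFF := Fermat.Agent.RED.H95.stmt_HKA_isFF N
  have hdeg := Fermat.Agent.RED.H51.stmt_FFB_deg _ _ hFF
  obtain ⟨hα₀, hβ₀, hP₀, hfin, hFI, hNF⟩ := Fermat.Agent.RED.H51.stmt_HKA N ℓ
  have hα' : (heckeAlphaBar (AlgebraicClosure ℚ) N ℓ).toRingHom.IsIntegral := hα
  have hβ' : (heckeBetaBar (AlgebraicClosure ℚ) N ℓ).toRingHom.IsIntegral := hβ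
  rw [← degree_eq_massHom hdeg]
  show Divisor.degree (Divisor.correspondence (heckeBetaBar (AlgebraicClosure ℚ) N ℓ)
    (heckeAlphaBar (AlgebraicClosure ℚ) N ℓ) hβ' hα' (Finsupp.single P 1)) = _
  rw [Divisor.degree_correspondence _ _ hβ' hα' hFI, finrankAlong_beta hℓ hN,
    Divisor.degree_single, hdeg]
  push_cast
  ring

theorem mapDomain_nonneg' {X Y : Type*} (r : X → Y) (D : X →₀ ℤ) (hD : ∀ x, 0 ≤ D x) (y : Y) :
    0 ≤ Finsupp.mapDomain r D y := by
  classical
  rw [Finsupp.mapDomain, Finsupp.sum, Finsupp.finsetSum_apply]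
  refine Finset.sum_nonneg fun x _ => ?_
  rw [Finsupp.single_apply]
  split_ifs
  · exact hD x
  · exact le_rfl

end PhiSide

end Fermat.Agent.RED.H95

namespace Fermat.Agent.RED.H95

/-- **ES-3** (Eichler–Shimura on divisors): `r_* (T_ℓ D) = φ (r_* D) + ℓ φ⁻¹ (r_* D)`. -/
theorem stmt_ES3 : Fermat.Agent.RED.Stmt_ES3 := by
  intro N ℓ _ _ hℓ hN A hA hα hβ _ r hr hmove φ hφ D
  classical
  have hFF := Fermat.Agent.RED.H95.stmt_HKA_isFF N
  have hPD : HasPrincipalDivisors (AlgebraicClosure ℚ) ↥(modularFunctionFieldBar N) :=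
    Fermat.Agent.RED.H51.stmt_FFB_principal _ _ hFF
  set Φ : Divisor (AlgebraicClosure ℚ) ↥(modularFunctionFieldBar N) →+
      Divisor (kV A) ↥(FtN A N) :=
    (Finsupp.mapDomain.addMonoidHom r).comp (heckeDivBar hα hβ) with hΦdef
  have hΦapp : ∀ E, Φ E = Finsupp.mapDomain r (heckeDivBar hα hβ E) := fun E => rfl
  have key : Φ = H52.PsiES r φ ℓ := by
    refine H52.eq_of_pos_of_move r H52.massHom (fun q => H52.massHom_single_one_pos q) Φ
      (H52.PsiES r φ ℓ) ?_ ?_ (H52.PsiES_loc r φ ℓ) ?_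
    · intro P Q
      rw [hΦapp]
      exact mapDomain_nonneg' r _ (fun P' => heckeDivBar_single_nonneg hα hβ P P') Q
    · intro P
      rw [hΦapp, H52.massHom_mapDomain, massHom_heckeDivBar_single hℓ hN,
        H52.massHom_PsiES_single]
    · intro P S
      obtain ⟨n, f, hn, hu, hfP, hf⟩ := hmove P S
      have hf0 : (f : ↥(modularFunctionFieldBar N)) ≠ 0 := by
        intro h0
        have : f = 0 := Subtype.ext h0
        rw [this] at hu
        exact not_isUnit_zero hu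
      obtain ⟨E, hE, -⟩ := hPD.exists_divisor (f : ↥(modularFunctionFieldBar N)) hf0
      refine ⟨n, E, hn, by rw [hE, hfP], fun P' hP' => ?_, ?_⟩
      · rw [hE]
        exact hf P' hP'
      · rw [hΦapp]
        exact mapDomain_hecke_eq_of_unit A hℓ hN hA hα hβ r hr φ hφ f hu E hE
  have h := congrArg (fun Θ : Divisor (AlgebraicClosure ℚ) ↥(modularFunctionFieldBar N) →+
      Divisor (kV A) ↥(FtN A N) => Θ D) key
  exact h

end Fermat.Agent.RED.H95
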