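import Mathlib.RingTheory.Norm.Basic
import Mathlib.FieldTheory.Fixed
import Mathlib.FieldTheory.PrimitiveElement
import Mathlib.FieldTheory.Normal.Basic
import Mathlib.LinearAlgebra.Matrix.NonsingularInverse
import Mathlib.LinearAlgebra.Matrix.Charpoly.Basic
import Mathlib.LinearAlgebra.Charpoly.ToMatrix

/-!
# G-RED, package ES (helper95): norm and characteristic polynomial through embeddings

Pure field theory, no modular input.

* `norm_eq_prod_of_injective` : if `F / K` is finite of degree `n` and `σ i : F →ₐ[K] L`
  (`i : ι`, `card ι = n`) are pairwise distinct `K`-embeddings into a field `L`, then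
  `N_{F/K} y = ∏ i, σ i y` in `L` (Dedekind independence of characters; `L` need not be
  algebraically closed or normal).
* `charpoly_eq_prod_of_injective` : the same for the characteristic polynomial of
  multiplication by `y`.
* `finrank_eq_card_of_cover`, `norm_eq_prod_of_cover` : if `L / K` is finite and normal,
  `ρ : F →ₐ[K] L`, and `σ c : L →ₐ[K] L` (`c : ι`) are such that every `K`-endomorphism of `L`
  agrees on `ρ F` with exactly one `σ c`, then `[F : K] = card ι` and `N_{F/K} y = ∏ c, σ c (ρ y)`.
-/

set_option autoImplicit false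

noncomputable section

namespace Fermat.Agent.RED.H95

open Module Matrix Polynomial

section Abstract

variable {K F L : Type*} [Field K] [Field F] [Field L] [Algebra K F] [Algebra K L]

/-- The matrix `(σ i (b j))` of a family of embeddings on a basis is invertible if the embeddings
are pairwise distinct. -/
theorem isUnit_embMatrix {n : Type*} [Fintype n] [DecidableEq n] (b : Basis n K F)
    (σ : n → (F →ₐ[K] L)) (hσ : Function.Injective σ) :
    IsUnit (Matrix.of fun i j => σ i (b j) : Matrix n n L) := by
  rw [← Matrix.linearIndependent_rows_iff_isUnit]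
  rw [Fintype.linearIndependent_iff]
  intro g hg i
  -- `∑ i, g i • σ i = 0` as linear maps
  have hlin : ∑ i, g i • (σ i).toLinearMap = 0 := by
    apply b.ext
    intro j
    have := congrFun hg j
    simpa [Matrix.row, Finset.sum_apply, Pi.smul_apply] using this
  have hind := linearIndependent_toLinearMap K F L
  have hind' : LinearIndependent L (fun i : n => (σ i).toLinearMap) :=
    hind.comp σ hσ
  exact (Fintype.linearIndependent_iff.mp hind') g hlin i

/-- Conjugation relation: `S * A = D * S`, `S = (σ i (b j))`, `A` the matrix of multiplication by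
`y`, `D = diag (σ i y)`. -/
theorem embMatrix_mul_leftMulMatrix {n : Type*} [Fintype n] [DecidableEq n] (b : Basis n K F)
    (σ : n → (F →ₐ[K] L)) (y : F) :
    (Matrix.of fun i j => σ i (b j) : Matrix n n L)
        * (Algebra.leftMulMatrix b y).map (algebraMap K L)
      = Matrix.diagonal (fun i => σ i y) * (Matrix.of fun i j => σ i (b j) : Matrix n n L) := by
  ext i j
  rw [Matrix.mul_apply, Matrix.diagonal_mul]
  simp only [Matrix.of_apply, Matrix.map_apply]
  have h : y * b j = ∑ k, (Algebra.leftMulMatrix b y) k j • b k := by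
    conv_lhs => rw [← b.sum_repr (y * b j)]
    refine Finset.sum_congr rfl fun k _ => ?_
    rw [Algebra.leftMulMatrix_eq_repr_mul]
  rw [← map_mul, h, map_sum]
  refine Finset.sum_congr rfl fun k _ => ?_
  rw [map_smul, Algebra.smul_def, mul_comm]

/-- **Norm through distinct embeddings.** -/
theorem norm_eq_prod_of_injective [FiniteDimensional K F] {ι : Type*} [Fintype ι]
    (σ : ι → (F →ₐ[K] L)) (hσ : Function.Injective σ)
    (hcard : Fintype.card ι = finrank K F) (y : F) :
    algebraMap K L (Algebra.norm K y) = ∏ i, σ i y := by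
  classical
  let b := Module.finBasis K F
  have e : ι ≃ Fin (finrank K F) := Fintype.equivOfCardEq (by rw [hcard, Fintype.card_fin])
  let σ' : Fin (finrank K F) → (F →ₐ[K] L) := fun i => σ (e.symm i)
  have hσ' : Function.Injective σ' := hσ.comp e.symm.injective
  have hS := isUnit_embMatrix b σ' hσ'
  have hrel := embMatrix_mul_leftMulMatrix b σ' y
  have hdet := congrArg Matrix.det hrel
  rw [Matrix.det_mul, Matrix.det_mul, Matrix.det_diagonal, mul_comm] at hdet
  have hS' : (Matrix.of fun i j => σ' i (b j) : Matrix _ _ L).det ≠ 0 :=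
    ((Matrix.isUnit_iff_isUnit_det _).mp hS).ne_zero
  have h2 := mul_right_cancel₀ hS' hdet
  rw [Algebra.norm_eq_matrix_det b y, RingHom.map_det, RingHom.mapMatrix_apply, h2]
  exact Fintype.prod_equiv e.symm _ _ (fun i => rfl)

/-- **Characteristic polynomial through distinct embeddings.** -/
theorem charpoly_eq_prod_of_injective [FiniteDimensional K F] {ι : Type*} [Fintype ι]
    (σ : ι → (F →ₐ[K] L)) (hσ : Function.Injective σ)
    (hcard : Fintype.card ι = finrank K F) (y : F) :
    (LinearMap.charpoly (Algebra.lmul K F y)).map (algebraMap K L) = ∏ i, (X - C (σ i y)) := by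
  classical
  let b := Module.finBasis K F
  have e : ι ≃ Fin (finrank K F) := Fintype.equivOfCardEq (by rw [hcard, Fintype.card_fin])
  let σ' : Fin (finrank K F) → (F →ₐ[K] L) := fun i => σ (e.symm i)
  have hσ' : Function.Injective σ' := hσ.comp e.symm.injective
  have hS := isUnit_embMatrix b σ' hσ'
  have hrel := embMatrix_mul_leftMulMatrix b σ' y
  obtain ⟨S, hSu⟩ := hS
  have hA : (Algebra.leftMulMatrix b y).map (algebraMap K L)
      = (S⁻¹ : (Matrix _ _ L)ˣ).1 * Matrix.diagonal (fun i => σ' i y) * S.1 := by
    rw [mul_assoc, hSu, ← hrel, ← hSu, ← mul_assoc, Units.inv_mul, one_mul]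
  have h1 : (LinearMap.charpoly (Algebra.lmul K F y))
      = (Algebra.leftMulMatrix b y).charpoly := by
    rw [Algebra.leftMulMatrix_apply, LinearMap.charpoly_toMatrix]
  rw [h1, ← Matrix.charpoly_map, hA, Matrix.charpoly_mul_comm, ← mul_assoc, Units.mul_inv,
    one_mul, Matrix.charpoly_diagonal]
  exact Fintype.prod_equiv e.symm _ _ (fun i => rfl)

end Abstract

section Cover

variable {K F L : Type*} [Field K] [Field F] [Field L] [Algebra K F] [Algebra K L]

/-- Every `K`-embedding of `F` into the normal extension `L` is `τ ∘ ρ` for a `K`-endomorphism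
`τ` of `L`. -/
theorem exists_comp_eq [Normal K L] (ρ ψ : F →ₐ[K] L) : ∃ τ : L →ₐ[K] L, τ.comp ρ = ψ := by
  let _ : Algebra F L := ρ.toRingHom.toAlgebra
  have : IsScalarTower K F L := IsScalarTower.of_algebraMap_eq fun k => (ρ.commutes k).symm
  refine ⟨ψ.liftNormal L, ?_⟩
  ext x
  have h := ψ.liftNormal_commutes L x
  exact h

theorem finiteDimensional_of_algHom [FiniteDimensional K L] (ρ : F →ₐ[K] L) :
    FiniteDimensional K F :=
  Module.Finite.of_injective ρ.toLinearMap ρ.injective

variable [FiniteDimensional K L] [Normal K L] [Algebra.IsSeparable K F]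

/-- If the `σ c ∘ ρ` are pairwise distinct and exhaust the restrictions to `ρ F` of the
`K`-endomorphisms of `L`, they are exactly the `K`-embeddings of `F` into `L`, so
`[F : K] = card ι`. -/
theorem finrank_eq_card_of_cover (ρ : F →ₐ[K] L) {ι : Type*} [Fintype ι]
    (σ : ι → (L →ₐ[K] L))
    (hcover : ∀ τ : L →ₐ[K] L, ∃ c, τ.comp ρ = (σ c).comp ρ)
    (hinj : Function.Injective fun c => (σ c).comp ρ) :
    finrank K F = Fintype.card ι := by
  classical
  have : FiniteDimensional K F := finiteDimensional_of_algHom ρ
  have hsplit : ∀ x : F, ((minpoly K x).map (algebraMap K L)).Splits := by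
    intro x
    have h := Normal.splits (F := K) (K := L) inferInstance (ρ x)
    rwa [minpoly.algHom_eq ρ ρ.injective] at h
  rw [← AlgHom.card_of_splits K F L hsplit]
  symm
  apply Fintype.card_of_bijective (f := fun c => (σ c).comp ρ)
  refine ⟨hinj, fun ψ => ?_⟩
  obtain ⟨τ, hτ⟩ := exists_comp_eq ρ ψ
  obtain ⟨c, hc⟩ := hcover τ
  exact ⟨c, by rw [← hτ, hc]⟩

/-- **Norm through a covering family of automorphisms.** -/
theorem norm_eq_prod_of_cover (ρ : F →ₐ[K] L) {ι : Type*} [Fintype ι]
    (σ : ι → (L →ₐ[K] L))
    (hcover : ∀ τ : L →ₐ[K] L, ∃ c, τ.comp ρ = (σ c).comp ρ)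
    (hinj : Function.Injective fun c => (σ c).comp ρ) (y : F) :
    algebraMap K L (Algebra.norm K y) = ∏ c, σ c (ρ y) := by
  have : FiniteDimensional K F := finiteDimensional_of_algHom ρ
  exact norm_eq_prod_of_injective (fun c => (σ c).comp ρ) hinj
    (finrank_eq_card_of_cover ρ σ hcover hinj).symm y

/-- **Characteristic polynomial through a covering family of automorphisms.** -/
theorem charpoly_eq_prod_of_cover (ρ : F →ₐ[K] L) {ι : Type*} [Fintype ι]
    (σ : ι → (L →ₐ[K] L))
    (hcover : ∀ τ : L →ₐ[K] L, ∃ c, τ.comp ρ = (σ c).comp ρ)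
    (hinj : Function.Injective fun c => (σ c).comp ρ) (y : F) :
    haveI : FiniteDimensional K F := finiteDimensional_of_algHom ρ
    (LinearMap.charpoly (Algebra.lmul K F y)).map (algebraMap K L)
      = ∏ c, (X - C (σ c (ρ y))) := by
  have : FiniteDimensional K F := finiteDimensional_of_algHom ρ
  exact charpoly_eq_prod_of_injective (fun c => (σ c).comp ρ) hinj
    (finrank_eq_card_of_cover ρ σ hcover hinj).symm y

end Cover

end Fermat.Agent.RED.H95
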