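import Fermat.Agent.RED.ES.H95_HeckeEmb

/-!
# G-RED, package ES (helper95): Galois action on `ρ (F_{Nℓ})` and on `φ (α F_N)`
-/

set_option autoImplicit false

noncomputable section

namespace Fermat.Agent.RED.H95

open Fermat.Agent.S24 ModularCurve Matrix ModularGroup CongruenceSubgroup UpperHalfPlane
open scoped MatrixGroups

section

variable (M : ℕ) [NeZero M]

theorem piK_algebraMap_toAT (γ : SL(2, ℤ)) (a b : Atil M)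
    (h : γ • (a : Hol) = (b : Hol)) :
    piK M γ (algebraMap (AT M) (LN M) (toAT M a)) = algebraMap (AT M) (LN M) (toAT M b) := by
  rw [piK_algebraMap]
  congr 1
  exact Subtype.ext h

end

variable (N : ℕ) [NeZero N] {ℓ : ℕ} [NeZero ℓ]

theorem alpha_jdF (d : ℕ) [NeZero d] (hd : d ∣ N) :
    heckeAlphaBar Kbar N ℓ (jdF N d hd) = jdF (N * ℓ) d (dvd_mul_of_dvd_left hd ℓ) :=
  Subtype.ext rfl

theorem beta_jdF (d : ℕ) [NeZero d] (hd : d ∣ N) :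
    heckeBetaBar Kbar N ℓ (jdF N d hd)
      = jdF (N * ℓ) (ℓ * d) (by rw [mul_comm ℓ d]; exact Nat.mul_dvd_mul_right hd ℓ) := by
  apply Subtype.ext
  rw [coe_heckeBetaBar, coe_jdF, coe_jdF, qExpand_qExpand]

/-- `φ_M ∘ α : F_N → LN M`. -/
def phiAlpha : FN N →ₐ[Kbar] LN (N * ℓ) := (phi (N * ℓ)).comp (heckeAlphaBar Kbar N ℓ)

theorem phiAlpha_apply (g : FN N) :
    phiAlpha N (ℓ := ℓ) g = phi (N * ℓ) (heckeAlphaBar Kbar N ℓ g) := rfl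

theorem phiAlpha_jdF (d : ℕ) [NeZero d] (hd : d ∣ N) :
    phiAlpha N (ℓ := ℓ) (jdF N d hd)
      = algebraMap (AT (N * ℓ)) (LN (N * ℓ)) (toAT (N * ℓ) (jdA (N * ℓ) d)) := by
  rw [phiAlpha_apply, alpha_jdF, phi_jdF]

/-- `Γ₀(N)` fixes `φ_M (α F_N)`. -/
theorem piK_phiAlpha_of_mem_Gamma0 (γ : SL(2, ℤ)) (hγ : γ ∈ Gamma0 N) :
    (piK (N * ℓ) γ).comp (phiAlpha N (ℓ := ℓ)) = phiAlpha N (ℓ := ℓ) := by
  apply algHom_eq_of_adjoin_eq_top _ _ _ (adjoin_jdF N)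
  rintro _ ⟨d, hd0, hd, rfl⟩
  rw [AlgHom.comp_apply, phiAlpha_jdF]
  apply piK_algebraMap_toAT
  have hdpos : 0 < d := NeZero.pos d
  rw [jdA_coe (N * ℓ) d hdpos (dvd_mul_of_dvd_left hd ℓ)]
  exact smul_JA_dg_one_of_mem_Gamma0 N (d : ℤ) (by exact_mod_cast hdpos)
    (Int.natCast_dvd_natCast.mpr hd) γ hγ

/-- If `piK γ` fixes `φ_M (α F_N)` then `γ ∈ Γ₀(N)`. -/
theorem mem_Gamma0_of_piK_phiAlpha (γ : SL(2, ℤ))
    (h : piK (N * ℓ) γ (phiAlpha N (ℓ := ℓ) (jdF N N dvd_rfl))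
      = phiAlpha N (ℓ := ℓ) (jdF N N dvd_rfl)) : γ ∈ Gamma0 N := by
  rw [phiAlpha_jdF, piK_algebraMap] at h
  have h2 := IsFractionRing.injective (AT (N * ℓ)) (LN (N * ℓ)) h
  have h3 : γ • (jdA (N * ℓ) N : Atil (N * ℓ)) = jdA (N * ℓ) N := h2
  have hNpos : 0 < N := NeZero.pos N
  have h4 : γ • ((jdA (N * ℓ) N : Atil (N * ℓ)) : Hol) = ((jdA (N * ℓ) N : Atil (N * ℓ)) : Hol) :=
    congrArg Subtype.val h3
  rw [jdA_coe (N * ℓ) N hNpos (dvd_mul_right N ℓ)] at h4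
  apply mem_Gamma0_of_smul_jdA N γ
  apply Subtype.ext
  rw [coe_smul_Atil, jdA_coe N N hNpos dvd_rfl]
  exact h4

variable {N}

/-- An element of `Γ₀(N) ∩ Γ⁰(ℓ)` fixes `ρ (F_M)`. -/
theorem piK_rho_of_fix (hℓ : ℓ.Prime) (η : SL(2, ℤ))
    (hb : (ℓ : ℤ) ∣ (η⁻¹ : SL(2, ℤ)).1 0 1) (hc : (N : ℤ) ∣ (η⁻¹ : SL(2, ℤ)).1 1 0) :
    (piK (N * ℓ) η).comp (rho N hℓ) = rho N hℓ := by
  apply algHom_eq_of_adjoin_eq_top _ _ _ (adjoin_jdF (N * ℓ))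
  rintro _ ⟨d', hd0, hd', rfl⟩
  rw [AlgHom.comp_apply]
  have hℓpos : (0 : ℤ) < ℓ := by exact_mod_cast hℓ.pos
  rcases dvd_mul_prime_cases hℓ hd' with hdN | ⟨d, hdN, rfl⟩
  · rw [rho_jdF_of_dvd N hℓ d' hdN]
    apply piK_algebraMap_toAT
    rw [xdA_coe]
    exact smul_JA_dg (d' : ℤ) ℓ (by exact_mod_cast NeZero.pos d') hℓpos η hb
      (dvd_trans (Int.natCast_dvd_natCast.mpr hdN) hc)
  · have : NeZero d := ⟨fun h0 => NeZero.ne (ℓ * d) (by rw [h0, mul_zero])⟩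
    rw [rho_jdF_mul N hℓ d hdN]
    apply piK_algebraMap_toAT
    rw [jdA_coe (N * ℓ) d (NeZero.pos d) (dvd_mul_of_dvd_left hdN ℓ)]
    exact smul_JA_dg (d : ℤ) 1 (by exact_mod_cast NeZero.pos d) one_pos η (one_dvd _)
      (dvd_trans (Int.natCast_dvd_natCast.mpr hdN) hc)

/-- `deltaInf` maps `ρ (α f)` to `φ_M (β f)`. -/
theorem piK_deltaInf_rho_alpha (hℓ : ℓ.Prime) (u v : ℤ) (h : u * ℓ + v * N = 1) :
    ((piK (N * ℓ) (deltaInf N ℓ u v h)).comp (rho N hℓ)).comp (heckeAlphaBar Kbar N ℓ)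
      = (phi (N * ℓ)).comp (heckeBetaBar Kbar N ℓ) := by
  apply algHom_eq_of_adjoin_eq_top _ _ _ (adjoin_jdF N)
  rintro _ ⟨d, hd0, hd, rfl⟩
  rw [AlgHom.comp_apply, AlgHom.comp_apply, AlgHom.comp_apply, alpha_jdF, beta_jdF,
    rho_jdF_of_dvd N hℓ d hd, phi_jdF]
  apply piK_algebraMap_toAT
  have hdpos : 0 < d := NeZero.pos d
  have hld : 0 < ℓ * d := Nat.mul_pos hℓ.pos hdpos
  rw [xdA_coe, jdA_coe (N * ℓ) (ℓ * d) hld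
    (by rw [mul_comm ℓ d]; exact Nat.mul_dvd_mul_right hd ℓ)]
  rw [deltaInf_smul_JA N ℓ u v h (d : ℤ) (by exact_mod_cast hdpos) hℓ.pos
    (Int.natCast_dvd_natCast.mpr hd)]
  congr 1
  show dg ((d : ℤ) * (ℓ : ℤ)) 1 = !![((ℓ * d : ℕ) : ℤ), 0; 0, 1]
  rw [dg]
  push_cast
  rw [mul_comm]

end Fermat.Agent.RED.H95
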