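import Fermat.Agent.S24.Closure.Atil

/-!
# G-RED, package ES (helper95): the cosets of `Γ₀(N) ∩ Γ⁰(ℓ)` in `Γ₀(N)`

`dg d e = [[d, 0], [0, e]]`.  For `d ∣ N` the function `j ∘ dg d ℓ` (`τ ↦ j (d τ / ℓ)`) is fixed by
`Γ₀(N) ∩ Γ⁰(ℓ)`; the cosets of this group in `Γ₀(N)` are represented by `T ^ b` (`0 ≤ b < ℓ`) and
by `deltaInf`, and `deltaInf • (j ∘ dg d ℓ) = j ∘ dg (d ℓ) 1`.

The action is `(γ • f) τ = f (γ⁻¹ τ)`, so `γ • (j ∘ A) = j ∘ (A γ⁻¹)`.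
-/

set_option autoImplicit false

noncomputable section

namespace Fermat.Agent.RED.H95

open Fermat.Agent.S24 Matrix ModularGroup CongruenceSubgroup UpperHalfPlane
open scoped MatrixGroups

/-- The diagonal matrix `[[d, 0], [0, e]]`. -/
def dg (d e : ℤ) : Matrix (Fin 2) (Fin 2) ℤ := !![d, 0; 0, e]

theorem det_dg (d e : ℤ) : (dg d e).det = d * e := by
  simp [dg, Matrix.det_fin_two]

theorem det_dg_pos {d e : ℤ} (hd : 0 < d) (he : 0 < e) : 0 < (dg d e).det := by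
  rw [det_dg]; exact mul_pos hd he

/-- Conjugating by `dg d e` an element with `e ∣` upper right entry and `d ∣` lower left entry. -/
theorem exists_dg_mul_eq (d e : ℤ) (δ : SL(2, ℤ)) (b₁ c₁ : ℤ) (hb : δ.1 0 1 = e * b₁)
    (hc : δ.1 1 0 = d * c₁) :
    ∃ γ' : SL(2, ℤ), dg d e * δ.1 = γ'.1 * dg d e := by
  have hdet : δ.1 0 0 * δ.1 1 1 - δ.1 0 1 * δ.1 1 0 = 1 := by
    have := δ.2
    rwa [Matrix.det_fin_two] at this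
  refine ⟨⟨!![δ.1 0 0, d * b₁; e * c₁, δ.1 1 1], ?_⟩, ?_⟩
  · rw [Matrix.det_fin_two_of]
    rw [hb, hc] at hdet
    linear_combination hdet
  · show dg d e * δ.1 = !![δ.1 0 0, d * b₁; e * c₁, δ.1 1 1] * dg d e
    have e1 : δ.1 = !![δ.1 0 0, e * b₁; d * c₁, δ.1 1 1] := by
      conv_lhs => rw [Matrix.eta_fin_two δ.1, hb, hc]
    conv_lhs => rw [e1]
    ext i j
    fin_cases i <;> fin_cases j <;> simp [dg, Matrix.mul_apply, Fin.sum_univ_two] <;> ring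

/-- An element `η` with `e ∣ (η⁻¹)₀₁` and `d ∣ (η⁻¹)₁₀` fixes `j ∘ dg d e`. -/
theorem smul_JA_dg (d e : ℤ) (hd : 0 < d) (he : 0 < e) (η : SL(2, ℤ))
    (hb : e ∣ (η⁻¹ : SL(2, ℤ)).1 0 1) (hc : d ∣ (η⁻¹ : SL(2, ℤ)).1 1 0) :
    η • JA (dg d e) = JA (dg d e) := by
  obtain ⟨b₁, hb₁⟩ := hb
  obtain ⟨c₁, hc₁⟩ := hc
  obtain ⟨γ', hγ'⟩ := exists_dg_mul_eq d e η⁻¹ b₁ c₁ hb₁ hc₁
  exact smul_JA_eq_of_mul_eq η γ' _ (det_dg_pos hd he) hγ'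

/-- `Γ₀(N)` fixes `j ∘ dg d 1` for `d ∣ N`. -/
theorem smul_JA_dg_one_of_mem_Gamma0 (N : ℕ) (d : ℤ) (hd : 0 < d) (hdN : d ∣ (N : ℤ))
    (γ : SL(2, ℤ)) (hγ : γ ∈ Gamma0 N) : γ • JA (dg d 1) = JA (dg d 1) := by
  have hγ' : γ⁻¹ ∈ Gamma0 N := inv_mem hγ
  rw [Gamma0_mem] at hγ'
  have hN : (N : ℤ) ∣ (γ⁻¹ : SL(2, ℤ)).1 1 0 := (ZMod.intCast_zmod_eq_zero_iff_dvd _ N).mp hγ'
  exact smul_JA_dg d 1 hd one_pos γ (one_dvd _) (dvd_trans hdN hN)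

/-! ### The extra coset -/

/-- The inverse of `deltaInf`: the matrix `[[ℓ, v], [-N, u]]`, `u ℓ + v N = 1`. -/
def epsInf (N ℓ : ℕ) (u v : ℤ) (h : u * ℓ + v * N = 1) : SL(2, ℤ) :=
  ⟨!![(ℓ : ℤ), v; -(N : ℤ), u], by rw [Matrix.det_fin_two_of]; linear_combination h⟩

/-- The representative of the extra coset. -/
def deltaInf (N ℓ : ℕ) (u v : ℤ) (h : u * ℓ + v * N = 1) : SL(2, ℤ) := (epsInf N ℓ u v h)⁻¹

theorem deltaInf_inv (N ℓ : ℕ) (u v : ℤ) (h : u * ℓ + v * N = 1) :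
    (deltaInf N ℓ u v h)⁻¹ = epsInf N ℓ u v h := inv_inv _

theorem coe_deltaInf (N ℓ : ℕ) (u v : ℤ) (h : u * ℓ + v * N = 1) :
    (deltaInf N ℓ u v h).1 = !![u, -v; (N : ℤ), (ℓ : ℤ)] := by
  rw [deltaInf, Matrix.SpecialLinearGroup.coe_inv, epsInf]
  simp [Matrix.adjugate_fin_two]

theorem epsInf_mem_Gamma0 (N ℓ : ℕ) (u v : ℤ) (h : u * ℓ + v * N = 1) :
    epsInf N ℓ u v h ∈ Gamma0 N := by
  rw [Gamma0_mem]
  show (((-(N : ℤ) : ℤ)) : ZMod N) = 0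
  simp

theorem deltaInf_mem_Gamma0 (N ℓ : ℕ) (u v : ℤ) (h : u * ℓ + v * N = 1) :
    deltaInf N ℓ u v h ∈ Gamma0 N := inv_mem (epsInf_mem_Gamma0 N ℓ u v h)

/-- `deltaInf • (j ∘ dg d ℓ) = j ∘ dg (d ℓ) 1` for `d ∣ N`. -/
theorem deltaInf_smul_JA (N ℓ : ℕ) (u v : ℤ) (h : u * ℓ + v * N = 1) (d : ℤ) (hd : 0 < d)
    (hℓ : 0 < ℓ) (hdN : d ∣ (N : ℤ)) :
    deltaInf N ℓ u v h • JA (dg d ℓ) = JA (dg (d * ℓ) 1) := by
  obtain ⟨N₁, hN₁⟩ := hdN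
  have hℓ' : (0 : ℤ) < ℓ := by exact_mod_cast hℓ
  rw [smul_JA _ _ (det_dg_pos hd hℓ'), deltaInf_inv]
  have hdet : (!![(1 : ℤ), d * v; -N₁, (ℓ : ℤ) * u] : Matrix (Fin 2) (Fin 2) ℤ).det = 1 := by
    rw [Matrix.det_fin_two_of]
    rw [hN₁] at h
    linear_combination h
  have hmul : dg d ℓ * (epsInf N ℓ u v h).1
      = (⟨!![(1 : ℤ), d * v; -N₁, (ℓ : ℤ) * u], hdet⟩ : SL(2, ℤ)).1 * dg (d * ℓ) 1 := by
    show dg d ℓ * !![(ℓ : ℤ), v; -(N : ℤ), u]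
      = !![(1 : ℤ), d * v; -N₁, (ℓ : ℤ) * u] * dg (d * ℓ) 1
    rw [hN₁]
    ext i j
    fin_cases i <;> fin_cases j <;> simp [dg, Matrix.mul_apply, Fin.sum_univ_two] <;> ring
  have hfin := JA_mul_left (⟨!![(1 : ℤ), d * v; -N₁, (ℓ : ℤ) * u], hdet⟩ : SL(2, ℤ))
    (dg (d * ℓ) 1) (det_dg_pos (mul_pos hd hℓ') one_pos)
  rw [hmul]
  exact hfin

/-! ### The covering -/

/-- The representatives: `T ^ b` for `b < ℓ` and `deltaInf`. -/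
def cosetRep (N ℓ : ℕ) (u v : ℤ) (h : u * ℓ + v * N = 1) : Option (Fin ℓ) → SL(2, ℤ)
  | some b => T ^ (b : ℕ)
  | none => deltaInf N ℓ u v h

theorem cosetRep_mem_Gamma0 (N ℓ : ℕ) (u v : ℤ) (h : u * ℓ + v * N = 1) (c : Option (Fin ℓ)) :
    cosetRep N ℓ u v h c ∈ Gamma0 N := by
  cases c with
  | none => exact deltaInf_mem_Gamma0 N ℓ u v h
  | some b =>
    show T ^ (b : ℕ) ∈ Gamma0 N
    rw [Gamma0_mem]
    have hT : ((T ^ (b : ℕ) : SL(2, ℤ)) : Matrix (Fin 2) (Fin 2) ℤ) = !![1, ((b : ℕ) : ℤ); 0, 1] := by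
      have := ModularGroup.coe_T_zpow ((b : ℕ) : ℤ)
      rwa [zpow_natCast] at this
    have : ((T ^ (b : ℕ) : SL(2, ℤ)) 1 0 : ℤ) = 0 := by
      show ((T ^ (b : ℕ) : SL(2, ℤ)) : Matrix (Fin 2) (Fin 2) ℤ) 1 0 = 0
      rw [hT]; rfl
    rw [this, Int.cast_zero]

/-- Entries of a product with `!![x, y; z, w]` on the right. -/
theorem mul_of_apply_zero_one (A : Matrix (Fin 2) (Fin 2) ℤ) (x y z w : ℤ) :
    (A * !![x, y; z, w]) 0 1 = A 0 0 * y + A 0 1 * w := by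
  simp [Matrix.mul_apply, Fin.sum_univ_two]

theorem mul_of_apply_one_zero (A : Matrix (Fin 2) (Fin 2) ℤ) (x y z w : ℤ) :
    (A * !![x, y; z, w]) 1 0 = A 1 0 * x + A 1 1 * z := by
  simp [Matrix.mul_apply, Fin.sum_univ_two]

/-- **The covering.** Every `γ ∈ Γ₀(N)` is `cosetRep c * η` with `η ∈ Γ₀(N) ∩ Γ⁰(ℓ)`
(expressed on `η⁻¹`). -/
theorem exists_cosetRep (N ℓ : ℕ) (hℓ : ℓ.Prime) (u v : ℤ) (h : u * ℓ + v * N = 1)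
    (γ : SL(2, ℤ)) (hγ : γ ∈ Gamma0 N) :
    ∃ (c : Option (Fin ℓ)) (η : SL(2, ℤ)), γ = cosetRep N ℓ u v h c * η ∧
      (ℓ : ℤ) ∣ (η⁻¹ : SL(2, ℤ)).1 0 1 ∧ (N : ℤ) ∣ (η⁻¹ : SL(2, ℤ)).1 1 0 := by
  have hγ' : γ⁻¹ ∈ Gamma0 N := inv_mem hγ
  rw [Gamma0_mem] at hγ'
  have hN : (N : ℤ) ∣ (γ⁻¹ : SL(2, ℤ)).1 1 0 := (ZMod.intCast_zmod_eq_zero_iff_dvd _ N).mp hγ'
  have : Fact ℓ.Prime := ⟨hℓ⟩
  by_cases hla : (ℓ : ℤ) ∣ (γ⁻¹ : SL(2, ℤ)).1 0 0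
  · -- the extra coset
    have e1 : ((deltaInf N ℓ u v h)⁻¹ * γ)⁻¹ = γ⁻¹ * deltaInf N ℓ u v h := by
      rw [_root_.mul_inv_rev, inv_inv]
    refine ⟨none, (deltaInf N ℓ u v h)⁻¹ * γ, ?_, ?_, ?_⟩
    · show γ = deltaInf N ℓ u v h * ((deltaInf N ℓ u v h)⁻¹ * γ)
      rw [mul_inv_cancel_left]
    · rw [e1, Matrix.SpecialLinearGroup.coe_mul, coe_deltaInf, mul_of_apply_zero_one]
      exact dvd_add (Dvd.dvd.mul_right hla _) (Dvd.intro_left _ rfl)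
    · rw [e1, Matrix.SpecialLinearGroup.coe_mul, coe_deltaInf, mul_of_apply_one_zero]
      exact dvd_add (Dvd.dvd.mul_right hN _) (Dvd.intro_left _ rfl)
  · -- a translation
    set a := (γ⁻¹ : SL(2, ℤ)).1 0 0 with ha
    set b' := (γ⁻¹ : SL(2, ℤ)).1 0 1 with hb'
    have ha0 : ((a : ZMod ℓ)) ≠ 0 := by
      rwa [Ne, ZMod.intCast_zmod_eq_zero_iff_dvd]
    -- `b ≡ - b' / a`
    set bz : ZMod ℓ := -(b' : ZMod ℓ) * (a : ZMod ℓ)⁻¹ with hbz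
    set b : ℕ := bz.val with hb
    have hblt : b < ℓ := ZMod.val_lt bz
    have hbcast : ((b : ℕ) : ZMod ℓ) = bz := by
      rw [hb, ZMod.natCast_zmod_val]
    have hkey : (ℓ : ℤ) ∣ a * (b : ℤ) + b' * 1 := by
      rw [← ZMod.intCast_zmod_eq_zero_iff_dvd]
      push_cast
      rw [hbcast, hbz]
      field_simp
      ring
    have hT : ((T ^ b : SL(2, ℤ)) : Matrix (Fin 2) (Fin 2) ℤ) = !![1, (b : ℤ); 0, 1] := by
      have := ModularGroup.coe_T_zpow (b : ℤ)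
      rwa [zpow_natCast] at this
    have e1 : ((T ^ b : SL(2, ℤ))⁻¹ * γ)⁻¹ = γ⁻¹ * T ^ b := by
      rw [_root_.mul_inv_rev, inv_inv]
    refine ⟨some ⟨b, hblt⟩, (T ^ b)⁻¹ * γ, ?_, ?_, ?_⟩
    · show γ = T ^ b * ((T ^ b)⁻¹ * γ)
      rw [mul_inv_cancel_left]
    · rw [e1, Matrix.SpecialLinearGroup.coe_mul, hT, mul_of_apply_zero_one]
      exact hkey
    · rw [e1, Matrix.SpecialLinearGroup.coe_mul, hT, mul_of_apply_one_zero]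
      rw [mul_one, mul_zero, add_zero]
      exact hN

end Fermat.Agent.RED.H95
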