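import Fermat.Agent.RED.ES.H95_Rho
import Fermat.Agent.RED.ES.H95_NormEmb

/-!
# G-RED, package ES (helper95): the `ℓ + 1` embeddings of `F_{Nℓ}` over `β (F_N)`

`M = N ℓ`, `ℓ` prime, `ℓ ∤ N`, `L = LN M = Frac (Atil M)`, `u = exp (2 π i τ / M)`.
`K = F_N` acts on `F_M` through `β` and on `L` through `φ_M ∘ α`; `ρ : F_M → L` is `K`-linear.
The `K`-automorphisms `σ c = piN (cosetRep c)` (`c ∈ Option (Fin ℓ)`) restricted to `ρ (F_M)` are
pairwise distinct and are all the `K`-embeddings of `F_M` into `L`.
-/

set_option autoImplicit false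

noncomputable section

namespace Fermat.Agent.RED.H95

open Fermat.Agent.S24 ModularCurve Matrix ModularGroup CongruenceSubgroup UpperHalfPlane
open scoped MatrixGroups

/-- Two algebra homomorphisms between fields which agree on a generating set are equal. -/
theorem algHom_eq_of_adjoin_eq_top {K A B : Type*} [Field K] [Field A] [Field B] [Algebra K A]
    [Algebra K B] (f g : A →ₐ[K] B) (S : Set A) (hS : IntermediateField.adjoin K S = ⊤)
    (h : ∀ x ∈ S, f x = g x) : f = g := by
  let E : IntermediateField K A :=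
    { carrier := {x | f x = g x}
      mul_mem' := fun {a b} ha hb => by
        show f (a * b) = g (a * b)
        rw [map_mul, map_mul, ha, hb]
      one_mem' := by
        show f 1 = g 1
        rw [map_one, map_one]
      add_mem' := fun {a b} ha hb => by
        show f (a + b) = g (a + b)
        rw [map_add, map_add, ha, hb]
      zero_mem' := by
        show f 0 = g 0
        rw [map_zero, map_zero]
      algebraMap_mem' := fun c => by
        show f (algebraMap K A c) = g (algebraMap K A c)
        rw [f.commutes, g.commutes]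
      inv_mem' := fun a ha => by
        show f a⁻¹ = g a⁻¹
        rw [map_inv₀, map_inv₀, ha] }
  have hE : E = ⊤ := by
    rw [eq_top_iff, ← hS, IntermediateField.adjoin_le_iff]
    exact fun x hx => h x hx
  ext x
  have : x ∈ E := by rw [hE]; exact IntermediateField.mem_top
  exact this

/-! ### The action of `T` on expansions, on the fraction field -/

section UL

variable (M : ℕ) [NeZero M]

/-- `piN γ` as a `Q̄`-algebra homomorphism. -/
def piK (γ : SL(2, ℤ)) : LN M →ₐ[Kbar] LN M :=
  ((piN M γ : LN M ≃ₐ[EN] LN M) : LN M →ₐ[EN] LN M).restrictScalars Kbar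

theorem piK_apply (γ : SL(2, ℤ)) (y : LN M) : piK M γ y = piN M γ y := rfl

theorem piK_mul (γ γ' : SL(2, ℤ)) (y : LN M) : piK M (γ * γ') y = piK M γ (piK M γ' y) := by
  rw [piK_apply, piK_apply, piK_apply, map_mul]
  rfl

theorem piK_algebraMap (γ : SL(2, ℤ)) (f : AT M) :
    piK M γ (algebraMap (AT M) (LN M) f) = algebraMap (AT M) (LN M) (γ • f) :=
  piN_algebraMap M γ f

theorem UL_piN_T (y : LN M) :
    UL M (piN M T y) = twist (zetaK M)⁻¹ (UL M y) := by
  have hz : (zetaK M)⁻¹ ≠ 0 := inv_ne_zero (zetaK_ne_zero M)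
  have key : ∀ f : AT M, UL M (piN M T (algebraMap (AT M) (LN M) f))
      = twist (zetaK M)⁻¹ (UL M (algebraMap (AT M) (LN M) f)) := by
    intro f
    rw [piN_algebraMap, UL_algebraMap, UL_algebraMap]
    exact uExp_T_smul M ((toAT M).symm f)
  obtain ⟨a, b, hb, rfl⟩ := IsFractionRing.div_surjective (A := AT M) y
  rw [map_div₀, map_div₀, key, key, map_div₀]
  exact (map_div₀ (twistHom (zetaK M)⁻¹ hz) _ _).symm

theorem UL_piN_T_pow (b : ℕ) (y : LN M) :
    UL M (piN M (T ^ b) y) = twist ((zetaK M)⁻¹ ^ b) (UL M y) := by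
  induction b generalizing y with
  | zero => rw [pow_zero, map_one, pow_zero, twist_one_left]; rfl
  | succ b ih =>
    rw [pow_succ, map_mul]
    show UL M (piN M (T ^ b) (piN M T y)) = _
    rw [ih, UL_piN_T, twist_twist, pow_succ]

end UL

end Fermat.Agent.RED.H95
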