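import Fermat.Agent.RED.ES.H95_HeckeGal

/-!
# G-RED, package ES-2 (helper95): the norm along `β` in `q`-expansions

`ℓ` prime, `ℓ ∤ N`, `K = F_N` acting on `F_{Nℓ}` through `β : g (q) ↦ g (q ^ ℓ)`.

* `finrank_beta` : `[F_{Nℓ} : β F_N] = ℓ + 1`;
* `norm_alpha_qExpand` : for `g ∈ F_N`,
  `(N_β (α g)) (q ^ ℓ) = g (q ^ (ℓ²)) * ∏_{b < ℓ} g (ζ ^ b q)` for a primitive `ℓ`-th root of
  unity `ζ`.
-/

set_option autoImplicit false

noncomputable section

namespace Fermat.Agent.RED.H95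

open Fermat.Agent.S24 ModularCurve Matrix ModularGroup CongruenceSubgroup UpperHalfPlane
open scoped MatrixGroups

variable (N : ℕ) [NeZero N] {ℓ : ℕ} [NeZero ℓ]

/-- `F_{Nℓ}` as an algebra over `F_N` through `β`. -/
@[reducible] def algBeta : Algebra (FN N) (FN (N * ℓ)) :=
  AlgebraicCurve.algebraAlong (heckeBetaBar Kbar N ℓ)

/-- `LN (N ℓ)` as an algebra over `F_N` through `φ ∘ α`. -/
@[reducible] def algPhiAlpha : Algebra (FN N) (LN (N * ℓ)) :=
  (phiAlpha N (ℓ := ℓ)).toRingHom.toAlgebra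

attribute [local instance] algBeta algPhiAlpha

omit [NeZero N] in
theorem algebraMap_beta (g : FN N) :
    algebraMap (FN N) (FN (N * ℓ)) g = heckeBetaBar Kbar N ℓ g := rfl

theorem algebraMap_phiAlpha (g : FN N) :
    algebraMap (FN N) (LN (N * ℓ)) g = phiAlpha N (ℓ := ℓ) g := rfl

theorem alpha_jF : heckeAlphaBar Kbar N ℓ (jF N) = jF (N * ℓ) := Subtype.ext rfl

theorem phiAlpha_aeval_jF (p : Polynomial Kbar) :
    phiAlpha N (ℓ := ℓ) (Polynomial.aeval (jF N) p)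
      = algebraMap (AT (N * ℓ)) (LN (N * ℓ)) (Polynomial.aeval (jT (N * ℓ)) p) := by
  rw [phiAlpha_apply, ← Polynomial.aeval_algHom_apply, alpha_jF, phi_aeval_jF]

theorem phiAlpha_algebraMap_EN (y : EN) :
    phiAlpha N (ℓ := ℓ) (algebraMap EN (FN N) y) = algebraMap EN (LN (N * ℓ)) y := by
  have h : ((phiAlpha N (ℓ := ℓ)).toRingHom.comp (algebraMap EN (FN N)))
      = algebraMap EN (LN (N * ℓ)) := by
    apply IsLocalization.ringHom_ext (nonZeroDivisors (Polynomial Kbar))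
    apply RingHom.ext
    intro p
    show phiAlpha N (ℓ := ℓ) (algebraMap EN (FN N) (algebraMap (Polynomial Kbar) EN p))
      = algebraMap EN (LN (N * ℓ)) (algebraMap (Polynomial Kbar) EN p)
    rw [← IsScalarTower.algebraMap_apply (Polynomial Kbar) EN (FN N),
      ← IsScalarTower.algebraMap_apply (Polynomial Kbar) EN (LN (N * ℓ)),
      IsScalarTower.algebraMap_apply (Polynomial Kbar) (AT (N * ℓ)) (LN (N * ℓ)),
      algebraMap_poly_FN, algebraMap_poly_AT, phiAlpha_aeval_jF]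
  exact congrArg (fun f : EN →+* LN (N * ℓ) => f y) h

instance towerE_FN_LM : IsScalarTower EN (FN N) (LN (N * ℓ)) :=
  IsScalarTower.of_algebraMap_eq fun y => (phiAlpha_algebraMap_EN N y).symm

instance finiteDimensional_FN_LM : FiniteDimensional (FN N) (LN (N * ℓ)) :=
  FiniteDimensional.right EN (FN N) (LN (N * ℓ))

instance normal_FN_LM : Normal (FN N) (LN (N * ℓ)) :=
  Normal.tower_top_of_normal EN (FN N) (LN (N * ℓ))

instance charZero_FN : CharZero (FN N) :=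
  charZero_of_injective_algebraMap (algebraMap Kbar (FN N)).injective

variable {N}

/-- `ρ` as a homomorphism of `F_N`-algebras. -/
def rhoK (hℓ : ℓ.Prime) : FN (N * ℓ) →ₐ[FN N] LN (N * ℓ) :=
  { (rho N hℓ).toRingHom with
    commutes' := fun g => rho_beta N hℓ g }

theorem rhoK_apply (hℓ : ℓ.Prime) (x : FN (N * ℓ)) : rhoK hℓ x = rho N hℓ x := rfl

theorem finiteDimensional_beta (hℓ : ℓ.Prime) : FiniteDimensional (FN N) (FN (N * ℓ)) :=
  finiteDimensional_of_algHom (rhoK hℓ)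

theorem isSeparable_beta (hℓ : ℓ.Prime) : Algebra.IsSeparable (FN N) (FN (N * ℓ)) := by
  have := finiteDimensional_beta (N := N) hℓ
  infer_instance

/-- The automorphisms `piN (cosetRep c)` as `F_N`-algebra homomorphisms. -/
def sigmaK (u v : ℤ) (h : u * ℓ + v * N = 1) (c : Option (Fin ℓ)) :
    LN (N * ℓ) →ₐ[FN N] LN (N * ℓ) :=
  { (piK (N * ℓ) (cosetRep N ℓ u v h c)).toRingHom with
    commutes' := fun g => by
      have := piK_phiAlpha_of_mem_Gamma0 N (ℓ := ℓ) _ (cosetRep_mem_Gamma0 N ℓ u v h c)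
      exact congrArg (fun f : FN N →ₐ[Kbar] LN (N * ℓ) => f g) this }

theorem sigmaK_apply (u v : ℤ) (h : u * ℓ + v * N = 1) (c : Option (Fin ℓ)) (y : LN (N * ℓ)) :
    sigmaK u v h c y = piN (N * ℓ) (cosetRep N ℓ u v h c) y := rfl

/-- Every `F_N`-endomorphism of `LN (N ℓ)` agrees on `ρ (F_{Nℓ})` with some `sigmaK c`. -/
theorem sigmaK_cover (hℓ : ℓ.Prime) (u v : ℤ) (h : u * ℓ + v * N = 1)
    (τ : LN (N * ℓ) →ₐ[FN N] LN (N * ℓ)) :
    ∃ c, τ.comp (rhoK hℓ) = (sigmaK u v h c).comp (rhoK hℓ) := by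
  -- `τ` is an element of the Galois group over `Q̄(j)`
  let τE : LN (N * ℓ) →ₐ[EN] LN (N * ℓ) := τ.restrictScalars EN
  let τ' : LN (N * ℓ) ≃ₐ[EN] LN (N * ℓ) := AlgEquiv.ofBijective τE (AlgHom.bijective τE)
  obtain ⟨γ, hγ⟩ := piN_surjective (N * ℓ) τ'
  have hτ : ∀ y, piN (N * ℓ) γ y = τ y := fun y => by rw [hγ]; rfl
  have hγ0 : γ ∈ Gamma0 N := by
    apply mem_Gamma0_of_piK_phiAlpha N (ℓ := ℓ) γ
    rw [piK_apply, hτ]
    exact τ.commutes (jdF N N dvd_rfl)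
  obtain ⟨c, η, hγη, hb, hc⟩ := exists_cosetRep N ℓ hℓ u v h γ hγ0
  refine ⟨c, ?_⟩
  ext x
  rw [AlgHom.comp_apply, AlgHom.comp_apply, ← hτ, hγη, sigmaK_apply, rhoK_apply, map_mul]
  show piN (N * ℓ) (cosetRep N ℓ u v h c) (piK (N * ℓ) η (rho N hℓ x)) = _
  have := piK_rho_of_fix hℓ η hb hc
  rw [← AlgHom.comp_apply, this]

/-! ### Distinctness -/

theorem jBar_coeff_neg_one : jBar.coeff (-1 : ℤ) = 1 := by
  rw [jBar, coeffEmb_coeff, coeff_jq_neg_one, map_one]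

/-- The coefficient of `u ^ (-N)` in the expansion of `sigmaK c (ρ j)`. -/
theorem coeff_sigmaK_rho_jF (hℓ : ℓ.Prime) (u v : ℤ) (h : u * ℓ + v * N = 1)
    (c : Option (Fin ℓ)) :
    (UL (N * ℓ) (sigmaK u v h c (rhoK hℓ (jdF (N * ℓ) 1 (one_dvd _))))).coeff (-(N : ℤ))
      = match c with
        | some b => ((zetaK (N * ℓ))⁻¹ ^ (b : ℕ)) ^ (-(N : ℤ))
        | none => 0 := by
  cases c with
  | some b =>
    show (UL (N * ℓ) (piN (N * ℓ) (T ^ (b : ℕ)) (rho N hℓ (jdF (N * ℓ) 1 (one_dvd _))))).coeff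
      (-(N : ℤ)) = _
    rw [UL_piN_T_pow, UL_rho, coe_jdF, qExpand_one_apply, twist_coeff]
    have h1 := qExpand_coeff_mul (R := Kbar) N jBar (-1)
    rw [mul_neg_one] at h1
    rw [h1, jBar_coeff_neg_one, mul_one]
  | none =>
    show (UL (N * ℓ) (piK (N * ℓ) (deltaInf N ℓ u v h) (rho N hℓ (jdF (N * ℓ) 1 (one_dvd _))))).coeff
      (-(N : ℤ)) = 0
    have e1 : jdF (N * ℓ) 1 (one_dvd _) = heckeAlphaBar Kbar N ℓ (jdF N 1 (one_dvd _)) :=
      (alpha_jdF N 1 (one_dvd _)).symm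
    have e2 := congrArg (fun f : FN N →ₐ[Kbar] LN (N * ℓ) => f (jdF N 1 (one_dvd _)))
      (piK_deltaInf_rho_alpha hℓ u v h)
    simp only [AlgHom.comp_apply] at e2
    rw [e1, e2, UL_phi, qN_apply, coe_heckeBetaBar, qExpand_qExpand]
    apply qExpand_coeff_of_not_dvd
    rintro ⟨k, hk⟩
    have hN : (0 : ℤ) < N := by exact_mod_cast NeZero.pos N
    have hl2 : (2 : ℤ) ≤ ℓ := by exact_mod_cast hℓ.two_le
    push_cast at hk
    have hk' : (N : ℤ) * ((ℓ : ℤ) * ℓ * k + 1) = 0 := by linear_combination -hk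
    rcases mul_eq_zero.mp hk' with h0 | h0
    · omega
    · have hdvd : (ℓ : ℤ) ∣ 1 := ⟨-(ℓ * k), by linear_combination h0⟩
      have := Int.le_of_dvd one_pos hdvd
      omega

theorem sigmaK_injective (hℓ : ℓ.Prime) (u v : ℤ) (h : u * ℓ + v * N = 1) :
    Function.Injective fun c => (sigmaK u v h c).comp (rhoK hℓ) := by
  intro c c' hcc
  have hval : ∀ c₁ c₂ : Option (Fin ℓ),
      (sigmaK u v h c₁).comp (rhoK hℓ) = (sigmaK u v h c₂).comp (rhoK hℓ) →
      (UL (N * ℓ) (sigmaK u v h c₁ (rhoK hℓ (jdF (N * ℓ) 1 (one_dvd _))))).coeff (-(N : ℤ))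
        = (UL (N * ℓ) (sigmaK u v h c₂ (rhoK hℓ (jdF (N * ℓ) 1 (one_dvd _))))).coeff
          (-(N : ℤ)) := by
    intro c₁ c₂ h12
    have := congrArg (fun f : FN (N * ℓ) →ₐ[FN N] LN (N * ℓ) => f (jdF (N * ℓ) 1 (one_dvd _))) h12
    simp only [AlgHom.comp_apply] at this
    rw [this]
  have hv := hval c c' hcc
  rw [coeff_sigmaK_rho_jF, coeff_sigmaK_rho_jF] at hv
  have hz : zetaK (N * ℓ) ≠ 0 := zetaK_ne_zero (N * ℓ)
  have hne : ∀ b : ℕ, ((zetaK (N * ℓ))⁻¹ ^ b) ^ (-(N : ℤ)) ≠ 0 :=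
    fun b => zpow_ne_zero _ (pow_ne_zero _ (inv_ne_zero hz))
  have hform : ∀ b : ℕ, ((zetaK (N * ℓ))⁻¹ ^ b) ^ (-(N : ℤ)) = zetaK (N * ℓ) ^ ((b : ℤ) * N) := by
    intro b
    rw [← zpow_natCast, ← _root_.zpow_mul, _root_.inv_zpow']
    congr 1
    ring
  cases c with
  | none =>
    cases c' with
    | none => rfl
    | some b' => exact absurd hv.symm (hne _)
  | some b =>
    cases c' with
    | none => exact absurd hv (hne _)
    | some b' =>
      simp only at hv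
      rw [hform, hform] at hv
      have h1 : zetaK (N * ℓ) ^ (((b : ℕ) : ℤ) * N - ((b' : ℕ) : ℤ) * N) = 1 := by
        rw [zpow_sub₀ hz, hv, div_self (zpow_ne_zero _ hz)]
      rw [zetaK_zpow_eq_one_iff] at h1
      obtain ⟨k, hk⟩ := h1
      have hN : (0 : ℤ) < N := by exact_mod_cast NeZero.pos N
      push_cast at hk
      have hk' : (N : ℤ) * (((b : ℕ) : ℤ) - ((b' : ℕ) : ℤ) - ℓ * k) = 0 := by
        linear_combination hk
      have hk2 : ((b : ℕ) : ℤ) - ((b' : ℕ) : ℤ) = ℓ * k := by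
        rcases mul_eq_zero.mp hk' with h0 | h0
        · omega
        · linarith
      have hb := b.2
      have hb' := b'.2
      have hk0 : k = 0 := by
        by_contra hk0
        have hℓpos : (0 : ℤ) < ℓ := by exact_mod_cast hℓ.pos
        rcases lt_or_gt_of_ne hk0 with hneg | hpos
        · have : (ℓ : ℤ) * k ≤ -ℓ := by nlinarith
          omega
        · have : (ℓ : ℤ) ≤ ℓ * k := by nlinarith
          omega
      rw [hk0, mul_zero] at hk2
      congr 1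
      apply Fin.ext
      omega

end Fermat.Agent.RED.H95
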