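import Fermat.Agent.S24.Closure.UExp

/-!
# G-RED, package ES (helper95): the twist `∑ cₙ Xⁿ ↦ ∑ cₙ zⁿ Xⁿ` as a ring homomorphism
-/

set_option autoImplicit false

noncomputable section

namespace Fermat.Agent.RED.H95

open Fermat.Agent.S24 ModularCurve

variable {F : Type*} [Field F]

theorem twist_support (z : F) (hz : z ≠ 0) (c : LaurentSeries F) :
    (twist z c).support = c.support := by
  ext n
  rw [HahnSeries.mem_support, HahnSeries.mem_support, twist_coeff]
  exact ⟨fun h hc => h (by rw [hc, mul_zero]), fun h => mul_ne_zero (zpow_ne_zero n hz) h⟩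

theorem twist_zero (z : F) : twist z (0 : LaurentSeries F) = 0 := by
  ext n
  rw [twist_coeff, HahnSeries.coeff_zero, mul_zero]

theorem twist_add (z : F) (x y : LaurentSeries F) : twist z (x + y) = twist z x + twist z y := by
  ext n
  rw [twist_coeff, HahnSeries.coeff_add, HahnSeries.coeff_add, twist_coeff, twist_coeff, mul_add]

theorem twist_single (z : F) (k : ℤ) (a : F) :
    twist z (HahnSeries.single k a) = HahnSeries.single k (z ^ k * a) := by
  ext n
  rw [twist_coeff]
  by_cases h : n = k
  · subst h
    rw [HahnSeries.coeff_single_same, HahnSeries.coeff_single_same]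
  · rw [HahnSeries.coeff_single_of_ne h, HahnSeries.coeff_single_of_ne h, mul_zero]

theorem twist_one (z : F) : twist z (1 : LaurentSeries F) = 1 := by
  have h : (1 : LaurentSeries F) = HahnSeries.single 0 1 := rfl
  rw [h, twist_single, zpow_zero, one_mul]

theorem twist_mul (z : F) (hz : z ≠ 0) (x y : LaurentSeries F) :
    twist z (x * y) = twist z x * twist z y := by
  ext n
  rw [twist_coeff, HahnSeries.coeff_mul, HahnSeries.coeff_mul, Finset.mul_sum]
  have hset : Finset.antidiagonal (twist z x).isPWO_support (twist z y).isPWO_support n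
      = Finset.antidiagonal x.isPWO_support y.isPWO_support n := by
    ext ij
    rw [Finset.mem_antidiagonal, Finset.mem_antidiagonal, twist_support z hz,
      twist_support z hz]
  rw [hset]
  refine Finset.sum_congr rfl fun ij hij => ?_
  rw [Finset.mem_antidiagonal] at hij
  rw [twist_coeff, twist_coeff, ← hij.2.2, zpow_add₀ hz]
  ring

/-- The twist by a nonzero scalar, as a ring homomorphism. -/
def twistHom (z : F) (hz : z ≠ 0) : LaurentSeries F →+* LaurentSeries F where
  toFun := twist z
  map_one' := twist_one z
  map_mul' := twist_mul z hz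
  map_zero' := twist_zero z
  map_add' := twist_add z

@[simp] theorem twistHom_apply (z : F) (hz : z ≠ 0) (c : LaurentSeries F) :
    twistHom z hz c = twist z c := rfl

theorem twist_twist (z w : F) (c : LaurentSeries F) : twist z (twist w c) = twist (z * w) c := by
  ext n
  rw [twist_coeff, twist_coeff, twist_coeff, mul_zpow, mul_assoc]

theorem twist_one_left (c : LaurentSeries F) : twist (1 : F) c = c := by
  ext n
  rw [twist_coeff, one_zpow, one_mul]

theorem twist_injective (z : F) (hz : z ≠ 0) : Function.Injective (twist z) := by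
  intro x y h
  have := congrArg (twist z⁻¹) h
  rwa [twist_twist, twist_twist, inv_mul_cancel₀ hz, twist_one_left, twist_one_left] at this

theorem twist_C (z : F) (a : F) : twist z (HahnSeries.C a) = HahnSeries.C a := by
  show twist z (HahnSeries.single 0 a) = HahnSeries.single 0 a
  rw [twist_single, zpow_zero, one_mul]

/-- Substituting `X ↦ X ^ N` after twisting by `w ^ N` is twisting by `w` after substituting. -/
theorem qExpand_twist (N : ℕ) [NeZero N] (w : F) (c : LaurentSeries F) :
    qExpand F N (twist (w ^ N) c) = twist w (qExpand F N c) := by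
  ext m
  rw [twist_coeff]
  by_cases hm : (N : ℤ) ∣ m
  · obtain ⟨k, rfl⟩ := hm
    rw [qExpand_coeff_mul, qExpand_coeff_mul, twist_coeff, ← zpow_natCast, ← zpow_mul]
  · rw [qExpand_coeff_of_not_dvd _ _ hm, qExpand_coeff_of_not_dvd _ _ hm, mul_zero]

end Fermat.Agent.RED.H95
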