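import Fermat.Agent.S24.Closure.Phi
import Fermat.Agent.RED.ES.H95_Cosets
import Fermat.Agent.RED.ES.H95_Twist
import Fermat.Prelude.Def_ModularCurve_HeckeOperator

/-!
# G-RED, package ES (helper95): the embedding `ρ : F_{Nℓ} → Frac (Atil (N ℓ))`, `h ↦ h (τ / ℓ)`

`M = N ℓ`, `u = exp (2 π i τ / M)`.  The embedding `phi M : F_M → LN M` of S24 is `h ↦ h (τ)`
(`UL (phi h) = h (u ^ M)`); here we construct `rho : F_M → LN M`, `h ↦ h (τ / ℓ)`,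
characterised by `UL (rho h) = h (u ^ N)`.  Then

* `rho (β g) = phi M (α g)` for `g ∈ F_N` (`α` the inclusion, `β : g (q) ↦ g (q ^ ℓ)`),
* `rho (j (q ^ d)) = j ∘ dg d ℓ` for `d ∣ N`.
-/

set_option autoImplicit false

noncomputable section

namespace Fermat.Agent.RED.H95

open Fermat.Agent.S24 ModularCurve Matrix ModularGroup CongruenceSubgroup UpperHalfPlane
open scoped MatrixGroups

variable (N ℓ : ℕ) [NeZero N] [NeZero ℓ]

/-- The series of `j (q ^ d)` over `Q̄`. -/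
theorem coeffEmb_qExpand_jq (d : ℕ) [NeZero d] :
    coeffEmb Kbar (qExpand ℚ d jq) = qExpand Kbar d jBar := by
  ext m
  by_cases hm : (d : ℤ) ∣ m
  · obtain ⟨k, rfl⟩ := hm
    rw [coeffEmb_coeff, qExpand_coeff_mul, qExpand_coeff_mul, jBar, coeffEmb_coeff]
  · rw [coeffEmb_coeff, qExpand_coeff_of_not_dvd _ _ hm, qExpand_coeff_of_not_dvd _ _ hm,
      map_zero]

theorem coe_jdF (M : ℕ) [NeZero M] (d : ℕ) [NeZero d] (hd : d ∣ M) :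
    ((jdF M d hd : FN M) : LaurentSeries Kbar) = qExpand Kbar d jBar :=
  coeffEmb_qExpand_jq d

/-- `j (d τ / ℓ)` as an element of `Atil (N ℓ)`, for `d ∣ N`. -/
def xdA (d : ℕ) (hd : 0 < d) (hdN : d ∣ N) : Atil (N * ℓ) :=
  ⟨JA (dg d ℓ), JA_mem_Atil (N * ℓ) _
    (det_dg_pos (by exact_mod_cast hd) (by exact_mod_cast NeZero.pos ℓ)) (by
      rw [det_dg]
      exact_mod_cast Nat.mul_dvd_mul_right hdN ℓ)⟩

omit [NeZero N] in
theorem xdA_coe (d : ℕ) (hd : 0 < d) (hdN : d ∣ N) :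
    ((xdA N ℓ d hd hdN : Atil (N * ℓ)) : Hol) = JA (dg d ℓ) := rfl

/-- The expansion of `j (d τ / ℓ)` is `j (u ^ (N d))`. -/
theorem uExp_xdA (d : ℕ) (hd : 0 < d) (hdN : d ∣ N) :
    haveI : NeZero (N * d) := ⟨Nat.mul_ne_zero (NeZero.ne N) hd.ne'⟩
    uExp (N * ℓ) (xdA N ℓ d hd hdN) = qExpand Kbar (N * d) jBar := by
  have : NeZero (N * d) := ⟨Nat.mul_ne_zero (NeZero.ne N) hd.ne'⟩
  have hℓ0 : 0 < ℓ := NeZero.pos ℓ
  obtain ⟨c, hc, hc1, hc2⟩ := hasUExp_JA_upper (N * ℓ) d ℓ 0 hd hℓ0 (dvd_mul_left ℓ N)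
  have hdiv : N * ℓ / ℓ * d = N * d := by rw [Nat.mul_div_cancel _ hℓ0]
  have e : uExp (N * ℓ) (xdA N ℓ d hd hdN) = c := by
    apply uExp_eq
    rw [xdA_coe]
    exact hc
  rw [e]
  ext m
  simp only [zero_mul, zpow_zero, one_mul, hdiv] at hc1 hc2
  by_cases hm : (((N * d : ℕ) : ℤ)) ∣ m
  · obtain ⟨n, rfl⟩ := hm
    rw [hc1, qExpand_coeff_mul]
  · rw [hc2 m hm, qExpand_coeff_of_not_dvd _ _ hm]

/-- `x (q) ↦ x (u ^ N)` on `F_{N ℓ}`. -/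
def rhoSer : FN (N * ℓ) →ₐ[Kbar] LaurentSeries Kbar :=
  (qExpandAlgHomC Kbar N).comp (modularFunctionFieldBar (N * ℓ)).val

omit [NeZero ℓ] in
theorem rhoSer_apply (x : FN (N * ℓ)) :
    rhoSer N ℓ x = qExpand Kbar N (x : LaurentSeries Kbar) := rfl

theorem rhoSer_jdF_of_dvd (d : ℕ) [NeZero d] (hdN : d ∣ N) :
    rhoSer N ℓ (jdF (N * ℓ) d (dvd_mul_of_dvd_left hdN ℓ))
      = UL (N * ℓ) (algebraMap (AT (N * ℓ)) (LN (N * ℓ))
          (toAT (N * ℓ) (xdA N ℓ d (NeZero.pos d) hdN))) := by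
  rw [UL_algebraMap, rhoSer_apply, coe_jdF]
  show _ = uExp (N * ℓ) ((toAT (N * ℓ)).symm (toAT (N * ℓ) (xdA N ℓ d (NeZero.pos d) hdN)))
  rw [AlgEquiv.symm_apply_apply, uExp_xdA, qExpand_qExpand]

theorem rhoSer_jdF_mul (d : ℕ) [NeZero d] (hdN : d ∣ N) :
    rhoSer N ℓ (jdF (N * ℓ) (ℓ * d) (by rw [mul_comm ℓ d]; exact Nat.mul_dvd_mul_right hdN ℓ))
      = UL (N * ℓ) (algebraMap (AT (N * ℓ)) (LN (N * ℓ))
          (toAT (N * ℓ) (jdA (N * ℓ) d))) := by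
  rw [UL_algebraMap, rhoSer_apply, coe_jdF]
  show _ = uExp (N * ℓ) ((toAT (N * ℓ)).symm (toAT (N * ℓ) (jdA (N * ℓ) d)))
  rw [AlgEquiv.symm_apply_apply, uExp_jdA (N * ℓ) d (dvd_mul_of_dvd_left hdN ℓ),
    coeffEmb_qExpand_jq, qExpand_qExpand, qExpand_qExpand]
  exact qExpand_congr (by ring) _

/-- A divisor of `N ℓ` is a divisor of `N` or `ℓ` times a divisor of `N` (`ℓ` prime). -/
theorem dvd_mul_prime_cases {N ℓ : ℕ} (hℓ : ℓ.Prime) {d' : ℕ} (h : d' ∣ N * ℓ) :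
    d' ∣ N ∨ ∃ d, d ∣ N ∧ d' = ℓ * d := by
  by_cases hl : ℓ ∣ d'
  · obtain ⟨d, rfl⟩ := hl
    right
    refine ⟨d, ?_, rfl⟩
    rw [mul_comm N ℓ] at h
    exact (Nat.mul_dvd_mul_iff_left hℓ.pos).mp h
  · left
    have hco : Nat.Coprime d' ℓ := (Nat.Prime.coprime_iff_not_dvd hℓ).mpr hl |>.symm
    exact hco.dvd_of_dvd_mul_right h

variable {ℓ} in
/-- The expansion `x (u ^ N)` of every element of `F_{N ℓ}` is the expansion of an element of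
`LN (N ℓ)`. -/
theorem rhoSer_mem_range (hℓ : ℓ.Prime) (x : FN (N * ℓ)) :
    rhoSer N ℓ x ∈ (UL (N * ℓ)).fieldRange := by
  have hM : IntermediateField.comap (rhoSer N ℓ) (UL (N * ℓ)).fieldRange = ⊤ := by
    rw [eq_top_iff, ← adjoin_jdF (N * ℓ), IntermediateField.adjoin_le_iff]
    rintro _ ⟨d', hd0, hd', rfl⟩
    show rhoSer N ℓ (jdF (N * ℓ) d' hd') ∈ (UL (N * ℓ)).fieldRange
    rcases dvd_mul_prime_cases hℓ hd' with hdN | ⟨d, hdN, rfl⟩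
    · exact ⟨_, (rhoSer_jdF_of_dvd N ℓ d' hdN).symm⟩
    · have : NeZero d := ⟨fun h0 => NeZero.ne (ℓ * d) (by rw [h0, mul_zero])⟩
      exact ⟨_, (rhoSer_jdF_mul N ℓ d hdN).symm⟩
  have : x ∈ IntermediateField.comap (rhoSer N ℓ) (UL (N * ℓ)).fieldRange := by
    rw [hM]; exact IntermediateField.mem_top
  exact this

variable {ℓ} in
theorem rhoSer_mem_range' (hℓ : ℓ.Prime) (x : FN (N * ℓ)) :
    rhoSer N ℓ x ∈ (UL (N * ℓ)).range := by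
  obtain ⟨y, hy⟩ := rhoSer_mem_range N hℓ x
  exact ⟨y, hy⟩

variable {ℓ} in
/-- The embedding `h ↦ h (τ / ℓ)` of `F_{N ℓ}` into the Galois closure. -/
def rho (hℓ : ℓ.Prime) : FN (N * ℓ) →ₐ[Kbar] LN (N * ℓ) :=
  ((AlgEquiv.ofInjective (UL (N * ℓ)) (UL_injective (N * ℓ))).symm :
      (UL (N * ℓ)).range →ₐ[Kbar] LN (N * ℓ)).comp
    ((rhoSer N ℓ).codRestrict (UL (N * ℓ)).range (rhoSer_mem_range' N hℓ))

variable {ℓ} in
theorem UL_rho (hℓ : ℓ.Prime) (x : FN (N * ℓ)) :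
    UL (N * ℓ) (rho N hℓ x) = qExpand Kbar N (x : LaurentSeries Kbar) := by
  have h := (AlgEquiv.ofInjective (UL (N * ℓ)) (UL_injective (N * ℓ))).apply_symm_apply
    ((rhoSer N ℓ).codRestrict (UL (N * ℓ)).range (rhoSer_mem_range' N hℓ) x)
  exact congrArg Subtype.val h

variable {ℓ} in
theorem rho_jdF_of_dvd (hℓ : ℓ.Prime) (d : ℕ) [NeZero d] (hdN : d ∣ N) :
    rho N hℓ (jdF (N * ℓ) d (dvd_mul_of_dvd_left hdN ℓ))
      = algebraMap (AT (N * ℓ)) (LN (N * ℓ))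
          (toAT (N * ℓ) (xdA N ℓ d (NeZero.pos d) hdN)) := by
  apply UL_injective (N * ℓ)
  rw [UL_rho, ← rhoSer_apply, rhoSer_jdF_of_dvd N ℓ d hdN]

variable {ℓ} in
theorem rho_jdF_mul (hℓ : ℓ.Prime) (d : ℕ) [NeZero d] (hdN : d ∣ N) :
    rho N hℓ (jdF (N * ℓ) (ℓ * d) (by rw [mul_comm ℓ d]; exact Nat.mul_dvd_mul_right hdN ℓ))
      = algebraMap (AT (N * ℓ)) (LN (N * ℓ)) (toAT (N * ℓ) (jdA (N * ℓ) d)) := by
  apply UL_injective (N * ℓ)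
  rw [UL_rho, ← rhoSer_apply, rhoSer_jdF_mul N ℓ d hdN]

variable {ℓ} in
/-- `ρ ∘ β = φ ∘ α`. -/
theorem rho_beta (hℓ : ℓ.Prime) (g : FN N) :
    rho N hℓ (heckeBetaBar Kbar N ℓ g) = phi (N * ℓ) (heckeAlphaBar Kbar N ℓ g) := by
  apply UL_injective (N * ℓ)
  rw [UL_rho, UL_phi, qN_apply, coe_heckeBetaBar, coe_heckeAlphaBar, qExpand_qExpand]

end Fermat.Agent.RED.H95
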